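import Fermat.Agent.LinearFormsPrimes.Sum
import Fermat.Agent.PrimeFractionalParts.Main

/-!
# Away from the origin

If `P = q²` for an approximation `A / q` of `a / b`, then `S (a α)` and `S (b α)` are not both
large for `(log P)¹⁷ / P < |α| ≤ log P`: two rationals with small denominators close to `a α` and
`b α` would give a multiple of `a / b` too close to an integer (Vinogradov's bound, Baker).
-/

set_option autoImplicit false

noncomputable section

namespace FA.LinearFormsPrimes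

open Finset Filter Topology MeasureTheory
open FA.ThreePrimes (logOne one_le_logOne)
open FA.DiophantineInequality (gaussK gaussK_pos integrable_kernel_mul_real)
open scoped Real

/-- `P` is the square of the denominator of an approximation of `r`. -/
def convergentSquare (r : ℝ) (P : ℕ) : Prop :=
  ∃ (q : ℕ) (A : ℤ), 0 < q ∧ IsCoprime A (q : ℤ) ∧ |r - A / q| ≤ 1 / (q : ℝ) ^ 2 ∧ P = q ^ 2

theorem frequently_convergentSquare {r : ℝ} (hr : Irrational r) :
    ∃ᶠ P : ℕ in atTop, convergentSquare r P := by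
  refine frequently_atTop.2 fun N => ?_
  obtain ⟨q, A, hq, hA, hqA⟩ := PrimeFractionalParts.exists_large_den hr N
  refine ⟨q ^ 2, hq.le.trans (Nat.le_self_pow two_ne_zero q), q, A, by omega, ?_, hqA, rfl⟩
  rw [ZMod.coe_int_isUnit_iff_isCoprime, isCoprime_comm] at hA
  exact hA

theorem tendsto_logOne : Tendsto (fun P : ℕ => logOne P) atTop atTop :=
  tendsto_atTop_add_const_left _ 1 (Real.tendsto_log_atTop.comp tendsto_natCast_atTop_atTop)

theorem eventually_logOne_le_two_log : ∀ᶠ P : ℕ in atTop, logOne P ≤ 2 * Real.log P := by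
  filter_upwards [(Real.tendsto_log_atTop.comp tendsto_natCast_atTop_atTop).eventually
    (eventually_ge_atTop 1)] with P hP
  rw [Function.comp_apply] at hP
  unfold ThreePrimes.logOne
  linarith

theorem eventually_logOne_pow_le (k : ℕ) {s c : ℝ} (hs : 0 < s) (hc : 0 < c) :
    ∀ᶠ P : ℕ in atTop, logOne P ^ k ≤ c * (P : ℝ) ^ s := by
  filter_upwards [((isLittleO_log_rpow_rpow_atTop (k : ℝ) hs).bound
    (show 0 < c / 2 ^ k by positivity)).natCast_atTop, eventually_logOne_le_two_log]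
    with P hP hL
  have hl : 0 ≤ Real.log P := Real.log_natCast_nonneg P
  rw [Real.norm_of_nonneg (Real.rpow_nonneg hl _), Real.rpow_natCast,
    Real.norm_of_nonneg (Real.rpow_nonneg (Nat.cast_nonneg P) _), div_mul_eq_mul_div,
    le_div_iff₀ (by positivity)] at hP
  refine (pow_le_pow_left₀ (zero_le_one.trans (one_le_logOne P)) hL k).trans ?_
  rw [mul_pow]
  linarith

/-- **Large sums only near rationals with small denominators.** -/
theorem exists_rational_of_large (m : ℕ) : ∀ᶠ P : ℕ in atTop, ∀ θ : ℝ,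
    (P : ℝ) / logOne P ^ m < ‖logSum P θ‖ → ∃ (q : ℕ) (A : ℤ), 0 < q ∧
      (q : ℝ) ≤ logOne P ^ (2 * m + 10) ∧ |q * θ - A| ≤ logOne P ^ (2 * m + 10) / P := by
  filter_upwards [eventually_logOne_pow_le (m + 4) (show (0 : ℝ) < 1 / 5 by norm_num)
    (show (0 : ℝ) < 1 / 704 by norm_num), tendsto_logOne.eventually (eventually_ge_atTop 1408),
    eventually_logOne_pow_le (2 * m + 10) one_pos one_pos, eventually_ge_atTop 1]
    with P h45 hLbig hLP hP1 θ hθ
  obtain ⟨L, hL⟩ : ∃ L, L = logOne P := ⟨_, rfl⟩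
  rw [← hL] at h45 hLbig hLP hθ ⊢
  rw [Real.rpow_one, one_mul] at hLP
  have hP0 : (0 : ℝ) < P := Nat.cast_pos.2 hP1
  have hL0 : 0 < L := by linarith
  obtain ⟨X, hX⟩ : ∃ X, X = L ^ (2 * m + 10) := ⟨_, rfl⟩
  rw [← hX] at hLP ⊢
  have hX0 : 0 < X := hX ▸ pow_pos hL0 _
  obtain ⟨Q, hQ⟩ : ∃ Q, Q = ⌊(P : ℝ) / X⌋₊ := ⟨_, rfl⟩
  have hQ0 : 0 < Q := hQ ▸ Nat.floor_pos.2 ((one_le_div hX0).2 hLP)
  have hQle : (Q : ℝ) ≤ P / X := hQ ▸ Nat.floor_le (by positivity)
  have hQlt : (P : ℝ) / X < Q + 1 := hQ ▸ Nat.lt_floor_add_one _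
  obtain ⟨ρ, hρ, hρQ⟩ := Real.exists_rat_abs_sub_le_and_den_le θ hQ0
  obtain ⟨s, hs⟩ : ∃ s, s = ρ.den := ⟨_, rfl⟩
  have hs0 : (0 : ℝ) < s := hs ▸ Nat.cast_pos.2 ρ.den_pos
  rw [show (ρ : ℝ) = (ρ.num : ℝ) / s by rw [hs, Rat.cast_def], ← hs] at hρ
  refine ⟨s, ρ.num, hs ▸ ρ.den_pos, ?_, ?_⟩
  · by_contra hbig
    rw [not_le] at hbig
    have : NeZero s := ⟨(hs ▸ ρ.den_pos).ne'⟩
    have hunit : IsUnit (ρ.num : ZMod s) := by
      rw [ZMod.coe_int_isUnit_iff_isCoprime, isCoprime_comm, Int.isCoprime_iff_nat_coprime, hs]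
      simpa using ρ.reduced
    have hsQ : (s : ℝ) ≤ Q := Nat.cast_le.2 (hs ▸ hρQ)
    have happ : |θ - ρ.num / s| ≤ 1 / (s : ℝ) ^ 2 := by
      refine hρ.trans (one_div_le_one_div_of_le (by positivity) ?_)
      rw [sq]
      exact mul_le_mul_of_nonneg_right (by linarith) hs0.le
    have hb := PrimeFractionalParts.norm_log_sum_le θ hunit happ (le_refl P)
    rw [← hL] at hb
    have e : √X = L ^ (m + 5) := by
      rw [hX, show L ^ (2 * m + 10) = (L ^ (m + 5)) ^ 2 by rw [← pow_mul]; congr 1; omega,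
        Real.sqrt_sq (by positivity)]
    have t1 : (P : ℝ) / √(s : ℝ) ≤ P / L ^ (m + 5) :=
      div_le_div_of_nonneg_left hP0.le (pow_pos hL0 _) (e ▸ Real.sqrt_le_sqrt hbig.le)
    have t2 : √((P : ℝ) * s) ≤ P / L ^ (m + 5) := by
      refine (Real.sqrt_le_sqrt (mul_le_mul_of_nonneg_left (hsQ.trans hQle) hP0.le)).trans
        (le_of_eq ?_)
      rw [mul_div_assoc', Real.sqrt_div (by positivity), Real.sqrt_mul_self hP0.le, e]
    have t3 : 352 * ((P : ℝ) ^ (4 / 5 : ℝ) * L ^ 4) ≤ 1 / 2 * (P / L ^ m) := by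
      rw [mul_div_assoc', le_div_iff₀ (by positivity)]
      have h := mul_le_mul_of_nonneg_left h45 (show 0 ≤ 352 * (P : ℝ) ^ (4 / 5 : ℝ) by positivity)
      have e45 : (P : ℝ) ^ (4 / 5 : ℝ) * (P : ℝ) ^ (1 / 5 : ℝ) = P := by
        rw [← Real.rpow_add hP0]
        norm_num
      calc 352 * ((P : ℝ) ^ (4 / 5 : ℝ) * L ^ 4) * L ^ m
          = 352 * (P : ℝ) ^ (4 / 5 : ℝ) * L ^ (m + 4) := by rw [pow_add]; ring
        _ ≤ _ := h
        _ = 352 / 704 * ((P : ℝ) ^ (4 / 5 : ℝ) * (P : ℝ) ^ (1 / 5 : ℝ)) := by ring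
        _ = _ := by rw [e45]; norm_num
    have t4 : 704 * ((P : ℝ) / L ^ (m + 5) * L ^ 4) ≤ 1 / 2 * (P / L ^ m) := by
      have e4 : (P : ℝ) / L ^ (m + 5) * L ^ 4 = P / L ^ m * (1 / L) := by
        rw [pow_add]
        field_simp
      rw [e4]
      have h1 : 704 * (1 / L) ≤ 1 / 2 := by
        rw [mul_one_div, div_le_iff₀ hL0]
        linarith
      calc 704 * ((P : ℝ) / L ^ m * (1 / L)) = P / L ^ m * (704 * (1 / L)) := by ring
        _ ≤ P / L ^ m * (1 / 2) := mul_le_mul_of_nonneg_left h1 (by positivity)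
        _ = _ := by ring
    have h5 : 352 * ((P : ℝ) / √(s : ℝ) + (P : ℝ) ^ (4 / 5 : ℝ) + √((P : ℝ) * s)) * L ^ 4 ≤
        352 * (P / L ^ (m + 5) + (P : ℝ) ^ (4 / 5 : ℝ) + P / L ^ (m + 5)) * L ^ 4 := by
      gcongr
    have h6 : ‖logSum P θ‖ ≤ _ := hb.trans h5
    linarith
  · rw [show (s : ℝ) * θ - ρ.num = s * (θ - ρ.num / s) by field_simp, abs_mul, Nat.abs_cast]
    refine (mul_le_mul_of_nonneg_left hρ hs0.le).trans ?_
    rw [mul_one_div, mul_comm ((Q : ℝ) + 1) (s : ℝ), ← div_div, div_self hs0.ne']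
    rw [div_lt_iff₀ hX0] at hQlt
    rw [div_le_div_iff₀ (by positivity) hP0]
    linarith

theorem one_le_abs_mul_sub {q : ℕ} {A n j : ℤ} (hA : IsCoprime A (q : ℤ)) (hn : n ≠ 0)
    (hnq : |n| < q) : (1 : ℝ) ≤ |(n : ℝ) * A - j * q| := by
  have hne : n * A - j * q ≠ 0 := by
    intro h
    have hd : (q : ℤ) ∣ n * A := ⟨j, by linarith⟩
    exact absurd (Int.le_of_dvd (abs_pos.2 hn) ((dvd_abs _ _).2
      (hA.symm.dvd_of_dvd_mul_right hd))) (not_le.2 hnq)
  have h := Int.one_le_abs hne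
  calc (1 : ℝ) ≤ ((|n * A - j * q| : ℤ) : ℝ) := by exact_mod_cast h
    _ = _ := by push_cast; rfl

/-- **The two sums are not both large.** -/
theorem not_both_large {a b : ℝ} (hb : b ≠ 0) (m : ℕ) : ∀ᶠ P : ℕ in atTop,
    convergentSquare (a / b) P → ∀ α : ℝ, logOne P ^ (2 * m + 11) / P < |α| → |α| ≤ logOne P →
      ‖logSum P (a * α)‖ ≤ P / logOne P ^ m ∨ ‖logSum P (b * α)‖ ≤ P / logOne P ^ m := by
  obtain ⟨C, hC⟩ : ∃ C, C = |a / b| + 1 + (|b| + 1) := ⟨_, rfl⟩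
  have hC0 : 0 < C := hC ▸ by positivity
  filter_upwards [exists_rational_of_large m,
    eventually_logOne_pow_le (2 * (2 * m + 10) + 1) (show (0 : ℝ) < 1 / 2 by norm_num)
      (show 0 < 1 / (2 * C) by positivity),
    eventually_logOne_pow_le (2 * m + 10) one_pos one_pos,
    tendsto_logOne.eventually (eventually_gt_atTop (1 / |b|)), eventually_ge_atTop 1]
    with P hrat hsmall hLP hLb hP1 hconv α hα1 hα2
  obtain ⟨q, A, hq, hA, hqA, hPq⟩ := hconv
  obtain ⟨L, hL⟩ : ∃ L, L = logOne P := ⟨_, rfl⟩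
  have hL1 : 1 ≤ L := hL ▸ one_le_logOne P
  rw [← hL] at hsmall hLP hLb hα1 hα2 ⊢
  rw [Real.rpow_one, one_mul] at hLP
  have hP0 : (0 : ℝ) < P := Nat.cast_pos.2 hP1
  have hqr : (0 : ℝ) < q := Nat.cast_pos.2 hq
  obtain ⟨X, hX⟩ : ∃ X, X = L ^ (2 * m + 10) := ⟨_, rfl⟩
  have hX0 : 0 < X := hX ▸ by positivity
  rw [← hX] at hLP
  by_contra hboth
  simp only [not_or, not_le] at hboth
  obtain ⟨q₁, A₁, hq₁, hq₁X, h₁⟩ := hrat (a * α) (hL ▸ hboth.1)
  obtain ⟨q₂, A₂, hq₂, hq₂X, h₂⟩ := hrat (b * α) (hL ▸ hboth.2)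
  rw [← hL, ← hX] at hq₁X h₁ hq₂X h₂
  have hb0 : 0 < |b| := abs_pos.2 hb
  have hA₂ : A₂ ≠ 0 := by
    intro h0
    rw [h0, Int.cast_zero, sub_zero, abs_mul, abs_mul, Nat.abs_cast] at h₂
    have hq1 : (1 : ℝ) ≤ q₂ := by exact_mod_cast hq₂
    have h3 : |b| * |α| ≤ X / P := (le_mul_of_one_le_left (by positivity) hq1).trans h₂
    have h4 : |α| ≤ 1 / |b| * (X / P) := by
      rw [one_div_mul_eq_div, le_div_iff₀ hb0]
      linarith
    have h5 : 1 / |b| * (X / P) ≤ L * (X / P) := mul_le_mul_of_nonneg_right hLb.le (by positivity)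
    have h6 : L * (X / P) = L ^ (2 * m + 11) / P := by
      rw [hX, pow_succ L (2 * m + 10)]
      ring
    linarith
  obtain ⟨n, hn⟩ : ∃ n : ℤ, n = A₂ * (q₁ : ℤ) := ⟨_, rfl⟩
  have hn0 : n ≠ 0 := hn ▸ mul_ne_zero hA₂ (by exact_mod_cast hq₁.ne')
  have hna : |(n : ℝ)| ≤ (|b| + 1) * (X * X * L) := by
    have h3 : |(A₂ : ℝ)| ≤ X * (|b| * L) + 1 := by
      have h4 := abs_sub_abs_le_abs_sub (A₂ : ℝ) (q₂ * (b * α))
      rw [abs_sub_comm, abs_mul, abs_mul, Nat.abs_cast] at h4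
      have h5 : (q₂ : ℝ) * (|b| * |α|) ≤ X * (|b| * L) :=
        mul_le_mul hq₂X (mul_le_mul_of_nonneg_left hα2 hb0.le) (by positivity) hX0.le
      have h6 : X / P ≤ 1 := (div_le_one hP0).2 hLP
      linarith [le_abs_self (|(A₂ : ℝ)| - q₂ * (|b| * |α|))]
    rw [hn]
    push_cast
    rw [abs_mul, Nat.abs_cast]
    have hX1 : 1 ≤ X := hX ▸ one_le_pow₀ hL1
    calc |(A₂ : ℝ)| * q₁ ≤ (X * (|b| * L) + 1) * X :=
          mul_le_mul h3 hq₁X (Nat.cast_nonneg _) (by positivity)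
      _ ≤ (X * (|b| * L) + X * L) * X := by gcongr; exact one_le_mul_of_one_le_of_one_le hX1 hL1
      _ = _ := by ring
  have hdist : |(n : ℝ) * (a / b) - ((A₁ * q₂ : ℤ) : ℝ)| ≤ (|a / b| + 1) * (X * X / P) := by
    rw [hn]
    push_cast
    rw [show (A₂ : ℝ) * q₁ * (a / b) - A₁ * q₂ =
      -(a / b * q₁ * (q₂ * (b * α) - A₂)) + q₂ * (q₁ * (a * α) - A₁) by field_simp; ring]
    refine (abs_add_le _ _).trans ?_
    rw [abs_neg, abs_mul, abs_mul, abs_mul, Nat.abs_cast, Nat.abs_cast]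
    refine (add_le_add (mul_le_mul (mul_le_mul_of_nonneg_left hq₁X (abs_nonneg (a / b))) h₂
      (abs_nonneg _) (by positivity)) (mul_le_mul hq₂X h₁ (abs_nonneg _) hX0.le)).trans
      (le_of_eq (by ring))
  have hsq : (P : ℝ) = (q : ℝ) ^ 2 := by rw [hPq]; push_cast; rfl
  have hroot : (P : ℝ) ^ (1 / 2 : ℝ) = q := by
    rw [← Real.sqrt_eq_rpow, hsq, Real.sqrt_sq hqr.le]
  rw [hroot] at hsmall
  have hXXL : L ^ (2 * (2 * m + 10) + 1) = X * X * L := by
    rw [hX, pow_succ, two_mul (2 * m + 10), pow_add]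
  rw [hXXL, one_div_mul_eq_div, le_div_iff₀ (by positivity)] at hsmall
  have hXX : 0 < X * X * L := by positivity
  have hb1 : (|b| + 1) * (X * X * L) < q := by
    have : 0 < (|a / b| + 1) * (X * X * L) := by positivity
    rw [hC] at hsmall
    linarith
  have hnq : |n| < (q : ℤ) := by
    rw [← Int.cast_lt (R := ℝ), Int.cast_abs, Int.cast_natCast]
    linarith
  have hone := one_le_abs_mul_sub (j := A₁ * q₂) hA hn0 hnq
  have hup : |(n : ℝ) * A - ((A₁ * q₂ : ℤ) : ℝ) * q| ≤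
      q * ((|a / b| + 1) * (X * X / P)) + q * (|(n : ℝ)| * (1 / (q : ℝ) ^ 2)) := by
    rw [show (n : ℝ) * A - ((A₁ * q₂ : ℤ) : ℝ) * q = q * ((n : ℝ) * (a / b) -
      ((A₁ * q₂ : ℤ) : ℝ)) + -(q * (n * (a / b - A / q))) by field_simp; ring]
    refine (abs_add_le _ _).trans ?_
    rw [abs_neg, abs_mul, abs_mul, abs_mul, Nat.abs_cast]
    gcongr
  have h1 := hone.trans hup
  rw [hsq, show (q : ℝ) * ((|a / b| + 1) * (X * X / (q : ℝ) ^ 2)) +
    q * (|(n : ℝ)| * (1 / (q : ℝ) ^ 2)) = ((|a / b| + 1) * (X * X) + |(n : ℝ)|) / q by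
    field_simp, one_le_div hqr] at h1
  have h2 : (|a / b| + 1) * (X * X) ≤ (|a / b| + 1) * (X * X * L) :=
    mul_le_mul_of_nonneg_left (le_mul_of_one_le_right (by positivity) hL1) (by positivity)
  rw [hC] at hsmall
  linarith

/-- The width of the major interval. -/
def majorWidth (P : ℕ) : ℝ := logOne P ^ 17 / P

theorem majorWidth_nonneg (P : ℕ) : 0 ≤ majorWidth P :=
  div_nonneg (pow_nonneg (zero_le_one.trans (one_le_logOne P)) _) (Nat.cast_nonneg P)

/-- **The rest of the line.** -/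
theorem exists_off_zero {a b c η ε : ℝ} (ha : a ≠ 0) (hb : b ≠ 0) (hc : c ≠ 0) (hη : 0 < η)
    (hε : 0 < ε) : ∀ᶠ P : ℕ in atTop, convergentSquare (a / b) P →
      ∫ α in (Set.Icc (-majorWidth P) (majorWidth P))ᶜ, gaussK η α * ‖tripleProd a b c P α‖ ≤
        ε * (P : ℝ) ^ 2 := by
  obtain ⟨G₁, hG₁, h₁⟩ := exists_sumSq_le ha hb hc hη
  obtain ⟨G₂, hG₂, h₂⟩ := exists_sumSq_le ha hb hc (show 0 < η / √2 by positivity)
  filter_upwards [not_both_large (a := a) hb 3,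
    tendsto_logOne.eventually (eventually_ge_atTop ((G₁ + 4 * G₂ / (π * η ^ 2)) / ε))]
    with P hboth hLbig hconv
  obtain ⟨L, hL⟩ : ∃ L, L = logOne P := ⟨_, rfl⟩
  have hL1 : 1 ≤ L := hL ▸ one_le_logOne P
  rw [← hL, div_le_iff₀ hε] at hLbig
  obtain ⟨E, hE⟩ : ∃ E, E = Real.exp (-(π * η ^ 2 / 2) * L ^ 2) := ⟨_, rfl⟩
  have hE0 : 0 < E := hE ▸ Real.exp_pos _
  obtain ⟨g, hg⟩ : ∃ g : ℝ → ℝ, g = fun α =>
      (P : ℝ) / L ^ 3 * (gaussK η α * sumSq a b c P α) +
        E * (2 * P) * (gaussK (η / √2) α * sumSq a b c P α) := ⟨_, rfl⟩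
  have hi₁ := integrable_sumSq hη a b c P
  have hi₂ := integrable_sumSq (show 0 < η / √2 by positivity) a b c P
  have hgint : Integrable g := hg ▸ (hi₁.const_mul _).add (hi₂.const_mul _)
  have hs0 : ∀ α, 0 ≤ sumSq a b c P α := fun α => by unfold sumSq; positivity
  have hg0 : ∀ α, 0 ≤ g α := fun α => by
    have := hs0 α
    have := gaussK_pos η α
    have := gaussK_pos (η / √2) α
    rw [hg]
    positivity
  refine (setIntegral_mono_on ?_ hgint.integrableOn measurableSet_Icc.compl fun α hα => ?_).trans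
    ((setIntegral_le_integral hgint (ae_of_all _ hg0)).trans ?_)
  · exact (integrable_kernel_mul_real hη (continuous_tripleProd a b c P).norm fun α => by
      rw [norm_norm]; exact norm_tripleProd_le a b c P α).integrableOn
  · have hout : majorWidth P < |α| := by
      rw [Set.mem_compl_iff, Set.mem_Icc] at hα
      by_contra hle
      exact hα (abs_le.1 (not_lt.1 hle))
    have hK := gaussK_pos η α
    have hK2 := gaussK_pos (η / √2) α
    have hs := hs0 α
    rw [hg]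
    dsimp only
    rcases le_or_gt |α| L with hαL | hαL
    · refine le_trans ?_ (le_add_of_nonneg_right (by positivity))
      rw [mul_left_comm]
      refine mul_le_mul_of_nonneg_left (norm_tripleProd_le_of_left a b c P α ?_) hK.le
      rw [hL]
      exact hboth hconv α hout (hL ▸ hαL)
    · refine le_trans ?_ (le_add_of_nonneg_left (by positivity))
      have hsplit : gaussK η α ≤ E * gaussK (η / √2) α := by
        simp only [hE, gaussK]
        rw [← Real.exp_add, Real.exp_le_exp, div_pow, Real.sq_sqrt two_pos.le]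
        have h2 : L ^ 2 ≤ α ^ 2 := sq_le_sq.2 (by rw [abs_of_pos (by linarith)]; linarith)
        have := mul_le_mul_of_nonneg_left h2 (show 0 ≤ π * η ^ 2 / 2 by positivity)
        linarith
      exact (mul_le_mul hsplit (norm_tripleProd_le_of_left a b c P α
        (Or.inl (norm_logSum_le P _))) (norm_nonneg _) (by positivity)).trans
        (le_of_eq (by ring))
  · rw [hg, integral_add (hi₁.const_mul _) (hi₂.const_mul _), integral_const_mul,
      integral_const_mul]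
    have h3 := mul_le_mul_of_nonneg_left (h₁ P) (show 0 ≤ (P : ℝ) / L ^ 3 by positivity)
    have h4 := mul_le_mul_of_nonneg_left (h₂ P) (show 0 ≤ E * (2 * (P : ℝ)) by positivity)
    rw [← hL] at h3 h4
    have hexp : E * L ≤ 2 / (π * η ^ 2) / L := by
      rw [le_div_iff₀ (by linarith), le_div_iff₀ (by positivity)]
      have h5 := Real.add_one_le_exp (π * η ^ 2 / 2 * L ^ 2)
      have h6 : E * Real.exp (π * η ^ 2 / 2 * L ^ 2) = 1 := by
        rw [hE, ← Real.exp_add, neg_mul, neg_add_cancel, Real.exp_zero]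
      have h7 := mul_le_mul_of_nonneg_left h5 hE0.le
      linarith
    have h8 : (P : ℝ) / L ^ 3 * (G₁ * (P * L)) ≤ G₁ / L * (P : ℝ) ^ 2 := by
      rw [show (P : ℝ) / L ^ 3 * (G₁ * (P * L)) = G₁ / L * (P : ℝ) ^ 2 * (1 / L) by field_simp]
      exact mul_le_of_le_one_right (by positivity) ((div_le_one (by linarith)).2 hL1)
    have h9 : E * (2 * (P : ℝ)) * (G₂ * (P * L)) ≤ 4 * G₂ / (π * η ^ 2) / L * (P : ℝ) ^ 2 := by
      have := mul_le_mul_of_nonneg_left hexp (show 0 ≤ 2 * G₂ * (P : ℝ) ^ 2 by positivity)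
      calc E * (2 * (P : ℝ)) * (G₂ * (P * L)) = 2 * G₂ * (P : ℝ) ^ 2 * (E * L) := by ring
        _ ≤ _ := this
        _ = _ := by ring
    have h10 : (G₁ + 4 * G₂ / (π * η ^ 2)) / L * (P : ℝ) ^ 2 ≤ ε * (P : ℝ) ^ 2 :=
      mul_le_mul_of_nonneg_right ((div_le_iff₀ (by linarith)).2 (by linarith)) (sq_nonneg _)
    rw [add_div, add_mul] at h10
    linarith

end FA.LinearFormsPrimes

end
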