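import Fermat.Agent.LinearFormsPrimes.Major
import Fermat.Agent.Root.SummaryPrimeNumberTheorem

/-!
# Linear forms in three primes

The weighted count is `η J + o (P²)` along the squares of the denominators of the approximations
of `a / b`, with `J` independent of `η` and `μ`; the wide weight `η = h P` and the prime number
theorem show `J ≫ P²` when `a > 0 > b`.
-/

set_option autoImplicit false

noncomputable section

namespace FA.LinearFormsPrimes

open Finset Filter Topology MeasureTheory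
open FA.ThreePrimes (eAdd norm_eAdd eAdd_zero logOne one_le_logOne)
open FA.DiophantineInequality (gaussW gaussK gaussW_pos gaussK_pos gaussK_le_one
  integrable_kernel_mul integrable_kernel_mul_real continuous_eAdd)
open FA.Equidist (primeSet)
open scoped Real

/-- The major part. -/
def majorPart (a b c : ℝ) (P : ℕ) : ℂ :=
  ∫ α in Set.Icc (-majorWidth P) (majorWidth P), tripleProd a b c P α

theorem norm_count_sub_major_le (a b c : ℝ) (P : ℕ) {η : ℝ} (hη : 0 < η) (μ : ℝ) :
    ‖((weightedTriples a b c P η μ / η : ℝ) : ℂ) - majorPart a b c P‖ ≤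
      (∫ α in Set.Icc (-majorWidth P) (majorWidth P),
        ‖(gaussK η α : ℂ) * eAdd (-(μ * α)) - 1‖ * ‖tripleProd a b c P α‖) +
      ∫ α in (Set.Icc (-majorWidth P) (majorWidth P))ᶜ,
        gaussK η α * ‖tripleProd a b c P α‖ := by
  have hint : Integrable fun α => (gaussK η α : ℂ) * (tripleProd a b c P α * eAdd (-(μ * α))) :=
    integrable_kernel_mul hη (F := fun α => tripleProd a b c P α * eAdd (-(μ * α)))
      ((continuous_tripleProd a b c P).mul
        (continuous_eAdd.comp (continuous_const.mul continuous_id).neg))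
      fun α => by rw [norm_mul, norm_eAdd, mul_one]; exact norm_tripleProd_le a b c P α
  rw [weightedTriples_div_eq a b c P hη, ← integral_add_compl measurableSet_Icc hint,
    add_sub_right_comm, majorPart,
    ← integral_sub hint.integrableOn (continuous_tripleProd a b c P).integrableOn_Icc]
  refine (norm_add_le _ _).trans (add_le_add ((norm_integral_le_integral_norm _).trans
    (le_of_eq (integral_congr_ae (ae_of_all _ fun α => ?_))))
    ((norm_integral_le_integral_norm _).trans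
    (le_of_eq (integral_congr_ae (ae_of_all _ fun α => ?_)))))
  · dsimp only
    rw [← norm_mul, sub_mul, one_mul]
    ring_nf
  · dsimp only
    rw [norm_mul, norm_mul, norm_eAdd, mul_one, Complex.norm_real, Real.norm_eq_abs,
      abs_of_pos (gaussK_pos η α)]

theorem continuous_kernel_diff (a b c η μ : ℝ) (P : ℕ) : Continuous fun α =>
    ‖(gaussK η α : ℂ) * eAdd (-(μ * α)) - 1‖ * ‖tripleProd a b c P α‖ :=
  (Continuous.norm (((Complex.continuous_ofReal.comp (by unfold gaussK; fun_prop)).mul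
    (continuous_eAdd.comp (continuous_const.mul continuous_id).neg)).sub continuous_const)).mul
    (continuous_tripleProd a b c P).norm

/-- **The count is `η J + o (P²)`.** -/
theorem eventually_count_near {a b c η ε : ℝ} (ha : a ≠ 0) (hb : b ≠ 0) (hc : c ≠ 0) (hη : 0 < η)
    (μ : ℝ) (hε : 0 < ε) : ∀ᶠ P : ℕ in atTop, convergentSquare (a / b) P →
      ‖((weightedTriples a b c P η μ / η : ℝ) : ℂ) - majorPart a b c P‖ ≤ ε * (P : ℝ) ^ 2 := by
  obtain ⟨C, hC, habs⟩ := exists_major_abs ha hb hc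
  obtain ⟨K, hK⟩ : ∃ K, K = π * η ^ 2 + 2 * π * |μ| := ⟨_, rfl⟩
  have hK0 : 0 ≤ K := hK ▸ by positivity
  filter_upwards [exists_off_zero ha hb hc hη (half_pos hε), habs,
    tendsto_majorWidth.eventually (eventually_le_nhds one_pos),
    (tendsto_majorWidth.const_mul (K * C)).eventually
      (eventually_le_nhds (show K * C * 0 < ε / 2 by linarith))]
    with P hoff habs hδ1 hsmall hconv
  refine (norm_count_sub_major_le a b c P hη μ).trans ?_
  obtain ⟨δ, hδ⟩ : ∃ δ, δ = majorWidth P := ⟨_, rfl⟩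
  rw [← hδ] at hoff habs hδ1 hsmall ⊢
  have hδ0 : 0 ≤ δ := hδ ▸ majorWidth_nonneg P
  have hmaj : ∫ α in Set.Icc (-δ) δ,
      ‖(gaussK η α : ℂ) * eAdd (-(μ * α)) - 1‖ * ‖tripleProd a b c P α‖ ≤
        K * δ * (C * (P : ℝ) ^ 2) := by
    refine (setIntegral_mono_on (continuous_kernel_diff a b c η μ P).integrableOn_Icc
      (((continuous_tripleProd a b c P).norm.const_mul (K * δ)).integrableOn_Icc)
      measurableSet_Icc fun α hα => ?_).trans ?_
    · refine mul_le_mul_of_nonneg_right ?_ (norm_nonneg _)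
      have hαδ : |α| ≤ δ := abs_le.2 hα
      rw [show (gaussK η α : ℂ) * eAdd (-(μ * α)) - 1 =
        ((gaussK η α - 1 : ℝ) : ℂ) * eAdd (-(μ * α)) + (eAdd (-(μ * α)) - 1) by push_cast; ring]
      refine (norm_add_le _ _).trans ?_
      rw [norm_mul, norm_eAdd, mul_one, Complex.norm_real, Real.norm_eq_abs, abs_sub_comm,
        abs_of_nonneg (sub_nonneg.2 (gaussK_le_one η α))]
      have h1 : 1 - gaussK η α ≤ π * η ^ 2 * α ^ 2 := by
        have := Real.add_one_le_exp (-(π * η ^ 2) * α ^ 2)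
        rw [gaussK]
        linarith
      have h2 := ThreePrimes.norm_eAdd_sub_one_le (-(μ * α))
      rw [abs_neg, abs_mul] at h2
      have h3 : α ^ 2 ≤ δ := by
        rw [← sq_abs]
        exact le_trans (by rw [sq]; exact mul_le_mul hαδ (hαδ.trans hδ1) (abs_nonneg _) hδ0)
          (le_of_eq (mul_one δ))
      have := mul_le_mul_of_nonneg_left h3 (show 0 ≤ π * η ^ 2 by positivity)
      have := mul_le_mul_of_nonneg_left hαδ (show 0 ≤ 2 * π * |μ| by positivity)
      rw [hK]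
      linarith
    · rw [integral_const_mul]
      exact mul_le_mul_of_nonneg_left habs (by positivity)
  have h1 := mul_le_mul_of_nonneg_right hsmall (show 0 ≤ (P : ℝ) ^ 2 by positivity)
  linarith [hoff hconv]

/-- The primes in `(x, y]`. -/
def primesIn (x y : ℝ) : Finset ℕ := (Ioc ⌊x⌋₊ ⌊y⌋₊).filter Nat.Prime

theorem mem_primesIn {x y : ℝ} (hx : 0 ≤ x) (hy : 0 ≤ y) {p : ℕ} :
    p ∈ primesIn x y ↔ (x < p ∧ (p : ℝ) ≤ y) ∧ p.Prime := by
  rw [primesIn, mem_filter, mem_Ioc, Nat.floor_lt hx, Nat.le_floor_iff hy]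

theorem primesIn_subset {x y : ℝ} {P : ℕ} (hy : y ≤ P) : primesIn x y ⊆ primeSet P := by
  intro p hp
  simp only [primesIn, mem_filter, mem_Ioc] at hp
  have h1 := hp.1.2.trans ((Nat.floor_le_floor hy).trans (Nat.floor_natCast P).le)
  exact mem_filter.2 ⟨mem_range.2 (Nat.lt_succ_of_le h1), hp.2⟩

/-- **Primes in every such interval.** -/
theorem eventually_interval {u w : ℝ} (hu : 0 < u) (hw : 0 < w) :
    ∀ᶠ P : ℕ in atTop, ∀ x y : ℝ, u * P ≤ x → x + w * P ≤ y → y ≤ P →
      w / 2 * P ≤ ∑ p ∈ primesIn x y, Real.log p := by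
  obtain ⟨T, hT⟩ := eventually_atTop.1
    ((Metric.tendsto_nhds.1 PNT.Summary.tendsto_theta (w / 4) (by positivity)).and
      (eventually_gt_atTop 0))
  filter_upwards [(tendsto_natCast_atTop_atTop.const_mul_atTop hu).eventually
    (eventually_ge_atTop T)] with P hP x y hx hxy hy
  have hP0 : (0 : ℝ) ≤ P := Nat.cast_nonneg P
  have hwP : 0 ≤ w * P := by positivity
  have hxT : T ≤ x := hP.trans hx
  have hyT : T ≤ y := by linarith
  have hnear : ∀ t, T ≤ t → |Chebyshev.theta t - t| ≤ w / 4 * t := fun t ht => by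
    obtain ⟨h1, h2⟩ := hT t ht
    rw [Real.dist_eq, div_sub_one h2.ne', abs_div, abs_of_pos h2, div_lt_iff₀ h2] at h1
    exact h1.le
  have hfl : ⌊x⌋₊ ≤ ⌊y⌋₊ := Nat.floor_le_floor (by linarith)
  have hsum : ∑ p ∈ primesIn x y, Real.log p = Chebyshev.theta y - Chebyshev.theta x := by
    rw [primesIn, Chebyshev.theta, Chebyshev.theta, sum_filter, sum_filter, sum_filter,
      ← sum_Ioc_consecutive (fun p => if p.Prime then Real.log p else 0) (Nat.zero_le _) hfl]
    ring
  have h3 := (abs_le.1 (hnear y hyT)).1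
  have h4 := (abs_le.1 (hnear x hxT)).2
  have h5 : w / 4 * y ≤ w / 4 * P := mul_le_mul_of_nonneg_left hy (by positivity)
  have h6 : w / 4 * x ≤ w / 4 * P := mul_le_mul_of_nonneg_left (by linarith) (by positivity)
  rw [hsum]
  linarith

/-- The triples with a small value. -/
theorem exists_small_values {a b : ℝ} (c : ℝ) (ha : 0 < a) (hb : b < 0) :
    ∃ g κ : ℝ, 0 < g ∧ 0 < κ ∧ ∀ h : ℝ, 0 < h → h ≤ κ → ∀ᶠ P : ℕ in atTop,
      g * h * (P : ℝ) ^ 3 ≤
        ∑ z ∈ (triples P).filter (fun z => |form a b c z| ≤ h * P), weight z := by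
  obtain ⟨v, hv⟩ : ∃ v, v = -b := ⟨_, rfl⟩
  have hv0 : 0 < v := by linarith
  obtain ⟨σ, hσ⟩ : ∃ σ, σ = min 1 (a / (4 * v)) := ⟨_, rfl⟩
  have hσ0 : 0 < σ := hσ ▸ lt_min one_pos (by positivity)
  have hσ1 : σ ≤ 1 := hσ ▸ min_le_left _ _
  have hσa : σ * (4 * v) ≤ a := (le_div_iff₀ (by positivity)).1 (hσ ▸ min_le_right _ _)
  obtain ⟨ρ, hρ⟩ : ∃ ρ, ρ = min 1 (v * σ / (4 * (|c| + 1))) := ⟨_, rfl⟩
  have hρ0 : 0 < ρ := hρ ▸ lt_min one_pos (by positivity)
  have hρ1 : ρ ≤ 1 := hρ ▸ min_le_left _ _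
  have hρc : ρ * (4 * (|c| + 1)) ≤ v * σ :=
    (le_div_iff₀ (by positivity)).1 (hρ ▸ min_le_right _ _)
  obtain ⟨x₀, hx₀⟩ : ∃ x₀, x₀ = v * σ / (4 * a) := ⟨_, rfl⟩
  have hx00 : 0 < x₀ := hx₀ ▸ by positivity
  have hx01 : x₀ ≤ 1 / 16 := by
    rw [hx₀, div_le_div_iff₀ (by positivity) (by norm_num)]
    linarith
  refine ⟨σ * ρ / (16 * a), a * x₀ / 2, by positivity, by positivity, fun h hh hhκ => ?_⟩
  obtain ⟨d, hd⟩ : ∃ d, d = h / a := ⟨_, rfl⟩
  have hd0 : 0 < d := hd ▸ by positivity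
  have hdx : d ≤ x₀ / 2 := by
    rw [hd, div_le_iff₀ ha]
    linarith
  filter_upwards [eventually_interval (u := σ / 2) (w := σ / 2) (by positivity) (by positivity),
    eventually_interval (u := ρ / 2) (w := ρ / 2) (by positivity) (by positivity),
    eventually_interval (u := x₀ / 2) (w := 2 * d) (by positivity) (by positivity)]
    with P hI₂ hI₃ hI₁
  have hP0 : (0 : ℝ) ≤ P := Nat.cast_nonneg P
  obtain ⟨S₂, hS₂⟩ : ∃ S, S = primesIn (σ / 2 * P) (σ * P) := ⟨_, rfl⟩
  obtain ⟨S₃, hS₃⟩ : ∃ S, S = primesIn (ρ / 2 * P) (ρ * P) := ⟨_, rfl⟩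
  have s₂ : σ / 4 * P ≤ ∑ p ∈ S₂, Real.log p := by
    have := hI₂ _ (σ * P) le_rfl (le_of_eq (by ring)) (mul_le_of_le_one_left hP0 hσ1)
    rw [hS₂]
    linarith
  have s₃ : ρ / 4 * P ≤ ∑ p ∈ S₃, Real.log p := by
    have := hI₃ _ (ρ * P) le_rfl (le_of_eq (by ring)) (mul_le_of_le_one_left hP0 hρ1)
    rw [hS₃]
    linarith
  have hsub₂ : S₂ ⊆ primeSet P := hS₂ ▸ primesIn_subset (mul_le_of_le_one_left hP0 hσ1)
  have hsub₃ : S₃ ⊆ primeSet P := hS₃ ▸ primesIn_subset (mul_le_of_le_one_left hP0 hρ1)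
  have hlog : ∀ n : ℕ, 0 ≤ Real.log n := Real.log_natCast_nonneg
  have hinner : ∀ q ∈ S₂, ∀ r ∈ S₃, d * P * (Real.log q * Real.log r) ≤
      ∑ p ∈ primeSet P, if |form a b c (p, q, r)| ≤ h * P then weight (p, q, r) else 0 := by
    intro q hq r hr
    rw [hS₂, mem_primesIn (by positivity) (by positivity)] at hq
    rw [hS₃, mem_primesIn (by positivity) (by positivity)] at hr
    obtain ⟨X, hX⟩ : ∃ X, X = -(b * q + c * r) / a := ⟨_, rfl⟩
    have hcr : |c * (r : ℝ)| ≤ v * σ / 4 * P := by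
      rw [abs_mul, Nat.abs_cast]
      refine (mul_le_mul_of_nonneg_left hr.1.2 (abs_nonneg c)).trans ?_
      rw [← mul_assoc]
      refine mul_le_mul_of_nonneg_right ?_ hP0
      have : 0 ≤ ρ * 4 := by positivity
      linarith
    have hq1 := mul_le_mul_of_nonneg_left hq.1.1.le hv0.le
    have hq2 := mul_le_mul_of_nonneg_left hq.1.2 hv0.le
    rw [abs_le] at hcr
    rw [show b = -v by linarith] at hX
    have hX1 : x₀ * P ≤ X := by
      rw [hX, hx₀, div_mul_eq_mul_div, div_le_div_iff₀ (by positivity) ha]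
      have := mul_le_mul_of_nonneg_right
        (show v * σ / 4 * (P : ℝ) ≤ -(-v * q + c * r) by linarith) ha.le
      linarith
    have hX2 : X ≤ 1 / 2 * P := by
      rw [hX, div_le_iff₀ ha]
      have := mul_le_mul_of_nonneg_right hσa hP0
      have : 0 ≤ a * P := by positivity
      linarith
    have hdP : d * P ≤ x₀ / 2 * P := mul_le_mul_of_nonneg_right hdx hP0
    have hxP := mul_le_mul_of_nonneg_right hx01 hP0
    have hdP0 : 0 ≤ d * P := by positivity
    have hI := hI₁ (X - d * P) (X + d * P) (by linarith) (le_of_eq (by ring)) (by linarith)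
    have hsub₁ : primesIn (X - d * P) (X + d * P) ⊆ primeSet P := primesIn_subset (by linarith)
    refine le_trans ?_ (sum_le_sum_of_subset_of_nonneg hsub₁ fun p _ _ => ?_)
    · rw [sum_congr rfl (g := fun p : ℕ => Real.log p * (Real.log q * Real.log r)) fun p hp => ?_,
        ← sum_mul]
      · exact mul_le_mul_of_nonneg_right (by linarith) (mul_nonneg (hlog q) (hlog r))
      · rw [mem_primesIn (by linarith) (by linarith)] at hp
        rw [if_pos, weight, mul_assoc]
        rw [form, show a * (p : ℝ) + b * q + c * r = a * (p - X) by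
          rw [hX, show b = -v by linarith]; field_simp; ring, abs_mul, abs_of_pos ha,
          show h * (P : ℝ) = a * (d * P) by rw [hd]; field_simp]
        exact mul_le_mul_of_nonneg_left (abs_le.2 ⟨by linarith, by linarith⟩) ha.le
    · split_ifs
      exacts [weight_nonneg _, le_rfl]
  have hswap : ∑ z ∈ (triples P).filter (fun z => |form a b c z| ≤ h * P), weight z =
      ∑ q ∈ primeSet P, ∑ r ∈ primeSet P, ∑ p ∈ primeSet P,
        if |form a b c (p, q, r)| ≤ h * P then weight (p, q, r) else 0 := by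
    rw [sum_filter, triples, sum_product, sum_comm, sum_product]
  have hnn : ∀ p q r : ℕ,
      0 ≤ if |form a b c (p, q, r)| ≤ h * P then weight (p, q, r) else 0 := fun p q r => by
    split_ifs
    exacts [weight_nonneg _, le_rfl]
  rw [hswap]
  refine le_trans ?_ (sum_le_sum_of_subset_of_nonneg hsub₂ fun q _ _ =>
    sum_nonneg fun r _ => sum_nonneg fun p _ => hnn p q r)
  refine le_trans ?_ (sum_le_sum fun q hq => (sum_le_sum (hinner q hq)).trans
    (sum_le_sum_of_subset_of_nonneg hsub₃ fun r _ _ => sum_nonneg fun p _ => hnn p q r))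
  simp only [← mul_sum, ← sum_mul]
  calc σ * ρ / (16 * a) * h * (P : ℝ) ^ 3 = d * P * (σ / 4 * P * (ρ / 4 * P)) := by
        rw [hd]; ring
    _ ≤ _ := mul_le_mul_of_nonneg_left (mul_le_mul s₂ s₃ (by positivity)
        (sum_nonneg fun q _ => hlog q)) (by positivity)

/-- **The major part is large.** -/
theorem exists_major_ge {a b c : ℝ} (ha : 0 < a) (hb : b < 0) (hc : c ≠ 0) :
    ∃ g : ℝ, 0 < g ∧ ∀ᶠ P : ℕ in atTop, convergentSquare (a / b) P →
      g * (P : ℝ) ^ 2 ≤ (majorPart a b c P).re := by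
  obtain ⟨g₀, κ, hg₀, hκ, hcount⟩ := exists_small_values c ha hb
  obtain ⟨E, hE, hprod⟩ := exists_product_bound ha.ne' hb.ne hc
  obtain ⟨g, hg⟩ : ∃ g, g = g₀ * Real.exp (-π) := ⟨_, rfl⟩
  have hg0 : 0 < g := hg ▸ by positivity
  obtain ⟨A, hA⟩ : ∃ A, A = 8 * E * π / g := ⟨_, rfl⟩
  have hA0 : 0 < A := hA ▸ by positivity
  obtain ⟨h, hh0, hhκ, hhA⟩ : ∃ h : ℝ, 0 < h ∧ h ≤ κ ∧ π * h ^ 2 * A ^ 2 * E * π ≤ g / 8 := by
    have hlim : Tendsto (fun h : ℝ => π * h ^ 2 * A ^ 2 * E * π) (𝓝[>] 0) (𝓝 0) :=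
      tendsto_nhdsWithin_of_tendsto_nhds (Continuous.tendsto' (by fun_prop) 0 0 (by simp))
    obtain ⟨h, ⟨h1, h2⟩, h3⟩ := ((eventually_nhdsWithin_of_forall
      fun h (hh : h ∈ Set.Ioi (0 : ℝ)) => hh).and
        (eventually_nhdsWithin_of_eventually_nhds (eventually_le_nhds hκ))).and
      (hlim.eventually (eventually_le_nhds (show 0 < g / 8 by positivity))) |>.exists
    exact ⟨h, h1, h2, h3⟩
  refine ⟨g / 2, by positivity, ?_⟩
  filter_upwards [hcount h hh0 hhκ, hprod,
    exists_off_zero ha.ne' hb.ne hc one_pos (show 0 < g / 8 by positivity),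
    tendsto_logOne.eventually (eventually_ge_atTop (16 * E / g)),
    (tendsto_natCast_atTop_atTop (R := ℝ)).eventually (eventually_ge_atTop (1 / h)),
    eventually_ge_atTop 1] with P hPc hPd hoff hLbig hPh hP1 hconv
  have hP0 : (0 : ℝ) < P := Nat.cast_pos.2 hP1
  have hη : 1 ≤ h * P := by
    rw [div_le_iff₀ hh0] at hPh
    linarith
  have hlow : g * (P : ℝ) ^ 2 ≤ weightedTriples a b c P (h * P) 0 / (h * P) := by
    rw [le_div_iff₀ (by linarith), weightedTriples]
    simp only [sub_zero]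
    refine le_trans ?_ (sum_le_sum_of_subset_of_nonneg (filter_subset
      (fun z => |form a b c z| ≤ h * P) (triples P)) fun i _ _ =>
        mul_nonneg (weight_nonneg i) (gaussW_pos _ _).le)
    refine le_trans ?_ (sum_le_sum (f := fun z => weight z * Real.exp (-π)) fun z hz => ?_)
    · rw [← sum_mul, hg]
      refine le_trans (le_of_eq ?_) (mul_le_mul_of_nonneg_right hPc (Real.exp_pos _).le)
      ring
    · refine mul_le_mul_of_nonneg_left ?_ (weight_nonneg z)
      rw [gaussW, Real.exp_le_exp, mul_div_assoc, neg_mul]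
      refine neg_le_neg (mul_le_of_le_one_right Real.pi_pos.le ?_)
      rw [div_le_one (by positivity)]
      exact sq_le_sq.2 (by
        rw [abs_of_pos (show 0 < h * (P : ℝ) by positivity)]; exact (mem_filter.1 hz).2)
  obtain ⟨u, hu⟩ : ∃ u, u = π * h ^ 2 * A ^ 2 * E + E / A := ⟨_, rfl⟩
  have hmaj := integral_major_le hP1 (continuous_kernel_diff a b c (h * P) 0 P) (u := u)
    (v := E * (1 / logOne P ^ 18)) (hu ▸ by positivity) fun α hα => by
    rw [zero_mul, neg_zero, eAdd_zero, mul_one, ← Complex.ofReal_one, ← Complex.ofReal_sub,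
      Complex.norm_real, Real.norm_eq_abs, abs_sub_comm,
      abs_of_nonneg (sub_nonneg.2 (gaussK_le_one _ α))]
    have h0 : 0 ≤ 1 - gaussK (h * P) α := sub_nonneg.2 (gaussK_le_one _ α)
    refine (mul_le_mul_of_nonneg_left (hPd α hα) h0).trans ?_
    have h1 : 1 - gaussK (h * P) α ≤ 1 := sub_le_self _ (gaussK_pos _ _).le
    obtain ⟨y, hy⟩ : ∃ y, y = (P : ℝ) * |α| := ⟨_, rfl⟩
    have hy0 : 0 ≤ y := hy ▸ by positivity
    obtain ⟨V, hV⟩ : ∃ V, V = 1 / logOne P ^ 18 := ⟨_, rfl⟩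
    have hV0 : 0 ≤ V :=
      hV ▸ div_nonneg zero_le_one (pow_nonneg (zero_le_one.trans (one_le_logOne P)) 18)
    rw [← hy, ← hV, show ((P : ℝ) * α) ^ 2 = y ^ 2 by rw [hy, mul_pow, mul_pow, sq_abs]]
    have hkey : (1 - gaussK (h * P) α) * (1 / (1 + y)) ^ 3 * E ≤ u * (1 + y ^ 2)⁻¹ := by
      rcases le_or_gt y A with hyA | hyA
      · have h2 : 1 - gaussK (h * P) α ≤ π * h ^ 2 * A ^ 2 := by
          have h3 := Real.add_one_le_exp (-(π * (h * P) ^ 2) * α ^ 2)
          have h4 := mul_le_mul_of_nonneg_left (pow_le_pow_left₀ hy0 hyA 2)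
            (show 0 ≤ π * h ^ 2 by positivity)
          rw [hy, mul_pow, sq_abs] at h4
          rw [gaussK]
          linarith
        calc (1 - gaussK (h * P) α) * (1 / (1 + y)) ^ 3 * E
            ≤ π * h ^ 2 * A ^ 2 * (1 + y ^ 2)⁻¹ * E := by
              refine mul_le_mul_of_nonneg_right (mul_le_mul h2 (cube_inv_le hy0) (by positivity)
                (by positivity)) hE.le
          _ ≤ _ := by
              rw [hu]
              have : 0 ≤ E / A * (1 + y ^ 2)⁻¹ := by positivity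
              linarith
      · calc (1 - gaussK (h * P) α) * (1 / (1 + y)) ^ 3 * E
            ≤ 1 * (1 / A * (1 + y ^ 2)⁻¹) * E := mul_le_mul_of_nonneg_right
              (mul_le_mul h1 (cube_inv_le_div hA0 hyA.le) (by positivity) zero_le_one) hE.le
          _ = E / A * (1 + y ^ 2)⁻¹ := by ring
          _ ≤ _ := by
              rw [hu]
              have : 0 ≤ π * h ^ 2 * A ^ 2 * E * (1 + y ^ 2)⁻¹ := by positivity
              linarith
    have h5 : (1 - gaussK (h * P) α) * (E * V) ≤ E * V :=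
      mul_le_of_le_one_left (by positivity) h1
    calc (1 - gaussK (h * P) α) * (E * (P : ℝ) ^ 3 * ((1 / (1 + y)) ^ 3 + V))
        = (P : ℝ) ^ 3 * ((1 - gaussK (h * P) α) * (1 / (1 + y)) ^ 3 * E +
            (1 - gaussK (h * P) α) * (E * V)) := by ring
      _ ≤ _ := mul_le_mul_of_nonneg_left (add_le_add hkey h5) (by positivity)
  have hoff' : ∫ α in (Set.Icc (-majorWidth P) (majorWidth P))ᶜ,
      gaussK (h * P) α * ‖tripleProd a b c P α‖ ≤ g / 8 * (P : ℝ) ^ 2 := by
    refine le_trans (setIntegral_mono ?_ ?_ fun α => ?_) (hoff hconv)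
    · exact (integrable_kernel_mul_real (by linarith) (continuous_tripleProd a b c P).norm
        fun α => by rw [norm_norm]; exact norm_tripleProd_le a b c P α).integrableOn
    · exact (integrable_kernel_mul_real one_pos (continuous_tripleProd a b c P).norm
        fun α => by rw [norm_norm]; exact norm_tripleProd_le a b c P α).integrableOn
    · refine mul_le_mul_of_nonneg_right (Real.exp_le_exp.2 ?_) (norm_nonneg _)
      have h1 : (1 : ℝ) ^ 2 ≤ (h * P) ^ 2 := pow_le_pow_left₀ zero_le_one hη 2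
      have h2 := mul_le_mul_of_nonneg_left h1 (show 0 ≤ π * α ^ 2 by positivity)
      linarith
  have huπ : u * π ≤ g / 4 := by
    rw [hu, add_mul]
    have : E / A * π = g / 8 := by rw [hA]; field_simp
    linarith
  have hv : 2 * (majorWidth P * P) * (E * (1 / logOne P ^ 18)) ≤ g / 8 := by
    have h1 := mul_le_mul_of_nonneg_left (majorWidth_mul_le hP1) (show 0 ≤ 2 * E by positivity)
    have h2 : 2 * E * (1 / logOne P) ≤ g / 8 := by
      rw [mul_one_div, div_le_iff₀ (zero_lt_one.trans_le (one_le_logOne P))]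
      rw [div_le_iff₀ hg0] at hLbig
      linarith
    linarith
  have h1 := (abs_le.1 ((Complex.abs_re_le_norm _).trans
    ((norm_count_sub_major_le a b c P (show 0 < h * (P : ℝ) by linarith) 0).trans
      (add_le_add hmaj hoff')))).2
  rw [Complex.sub_re, Complex.ofReal_re] at h1
  have h2 := mul_le_mul_of_nonneg_left (add_le_add huπ hv) (sq_nonneg (P : ℝ))
  linarith

/-- The triples of primes with `|a p₁ + b p₂ + c p₃ - μ| < η`. -/
def near (a b c μ η : ℝ) (P : ℕ) : Finset (ℕ × ℕ × ℕ) :=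
  (triples P).filter fun z => |form a b c z - μ| < η

theorem sum_weight_le (s : Finset (ℕ × ℕ × ℕ)) (P : ℕ) (hs : s ⊆ triples P) :
    ∑ z ∈ s, weight z ≤ #s * Real.log P ^ 3 := by
  rw [← nsmul_eq_mul]
  refine sum_le_card_nsmul _ _ _ fun z hz => ?_
  have h := hs hz
  simp only [triples, mem_product, Equidist.primeSet, mem_filter, mem_range] at h
  have hl : ∀ p : ℕ, p < P + 1 ∧ p.Prime → Real.log p ≤ Real.log P := fun p hp =>
    Real.log_le_log (Nat.cast_pos.2 hp.2.pos) (Nat.cast_le.2 (Nat.lt_succ_iff.1 hp.1))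
  have hl0 : 0 ≤ Real.log P := Real.log_natCast_nonneg P
  rw [weight, pow_succ, pow_two]
  exact mul_le_mul (mul_le_mul (hl _ h.1) (hl _ h.2.1) (Real.log_natCast_nonneg _) hl0)
    (hl _ h.2.2) (Real.log_natCast_nonneg _) (mul_nonneg hl0 hl0)

/-- **The count, for `a > 0 > b`.** -/
theorem exists_count_ge {a b c : ℝ} (ha : 0 < a) (hb : b < 0) (hc : c ≠ 0) (μ : ℝ) {η : ℝ}
    (hη : 0 < η) : ∃ g : ℝ, 0 < g ∧ ∀ᶠ P : ℕ in atTop, convergentSquare (a / b) P →
      g * ((P : ℝ) ^ 2 / Real.log P ^ 3) ≤ #(near a b c μ η P) := by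
  obtain ⟨c₀, hc₀, hmaj⟩ := exists_major_ge ha hb hc
  obtain ⟨C₁, hC₁, habs⟩ := exists_major_abs ha.ne' hb.ne hc
  obtain ⟨C, hC⟩ : ∃ C, C = C₁ + 1 := ⟨_, rfl⟩
  have hC0 : 0 < C := by linarith
  obtain ⟨w, hw0, hw1, hw⟩ : ∃ w : ℝ, 0 < w ∧ w ^ 2 ≤ 1 / 2 ∧
      Real.exp (-π * (η ^ 2 / (2 * w ^ 2))) * C ≤ c₀ * w / 4 := by
    obtain ⟨w, hw0, hw1, hwc⟩ : ∃ w : ℝ, 0 < w ∧ w ≤ 1 / 2 ∧ w ≤ π * η ^ 2 * c₀ / (8 * C) :=
      ⟨min (1 / 2) (π * η ^ 2 * c₀ / (8 * C)), lt_min (by norm_num) (by positivity),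
        min_le_left _ _, min_le_right _ _⟩
    refine ⟨w, hw0, (pow_le_pow_left₀ hw0.le hw1 2).trans (by norm_num), ?_⟩
    rw [neg_mul, Real.exp_neg, inv_mul_eq_div, div_le_iff₀ (Real.exp_pos _)]
    have h1 := mul_le_mul_of_nonneg_left (Real.add_one_le_exp (π * (η ^ 2 / (2 * w ^ 2))))
      (show 0 ≤ c₀ * w / 4 by positivity)
    have h2 : C ≤ c₀ * w / 4 * (π * (η ^ 2 / (2 * w ^ 2))) := by
      rw [show c₀ * w / 4 * (π * (η ^ 2 / (2 * w ^ 2))) = π * η ^ 2 * c₀ / 8 / w by
        field_simp; ring, le_div_iff₀ hw0]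
      rw [le_div_iff₀ (by positivity)] at hwc
      linarith
    have h3 : 0 ≤ c₀ * w / 4 := by positivity
    linarith
  refine ⟨c₀ * w / 4, by positivity, ?_⟩
  filter_upwards [hmaj, eventually_count_near ha.ne' hb.ne hc hw0 μ
      (show 0 < c₀ / 2 by positivity), habs, exists_off_zero ha.ne' hb.ne hc one_pos one_pos,
    eventually_ge_atTop 2] with P hP hnear habs hoff hP2 hconv
  have hlog : 0 < Real.log P := Real.log_pos (by exact_mod_cast hP2)
  obtain ⟨Y, hY⟩ : ∃ Y : ℝ, Y = (P : ℝ) ^ 2 := ⟨_, rfl⟩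
  rw [← hY] at hP hnear habs hoff ⊢
  have h1 := (abs_le.1 ((Complex.abs_re_le_norm _).trans (hnear hconv))).1
  rw [Complex.sub_re, Complex.ofReal_re] at h1
  have h2 : c₀ / 2 * Y * w ≤ weightedTriples a b c P w μ := by
    rw [← le_div_iff₀ hw0]
    linarith [hP hconv]
  have h3 : weightedTriples a b c P 1 μ ≤ C * Y := by
    have h := weightedTriples_div_eq a b c P one_pos μ
    rw [div_one] at h
    have hint : Integrable fun α => gaussK 1 α * ‖tripleProd a b c P α‖ :=
      integrable_kernel_mul_real one_pos (continuous_tripleProd a b c P).norm fun α => by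
        rw [norm_norm]; exact norm_tripleProd_le a b c P α
    have h' := congrArg norm h
    rw [Complex.norm_real, Real.norm_eq_abs] at h'
    refine (le_abs_self _).trans (h'.le.trans ((norm_integral_le_integral_norm _).trans
      (le_of_eq_of_le (integral_congr_ae (ae_of_all _ fun α => ?_))
        (le_of_eq_of_le (integral_add_compl (s := Set.Icc (-majorWidth P) (majorWidth P))
          measurableSet_Icc hint).symm ?_))))
    · dsimp only
      rw [norm_mul, norm_mul, norm_eAdd, mul_one, Complex.norm_real, Real.norm_eq_abs,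
        abs_of_pos (gaussK_pos 1 α)]
    · have h4 : ∫ α in Set.Icc (-majorWidth P) (majorWidth P),
          gaussK 1 α * ‖tripleProd a b c P α‖ ≤ C₁ * Y :=
        (setIntegral_mono_on hint.integrableOn
          (continuous_tripleProd a b c P).norm.integrableOn_Icc measurableSet_Icc
          fun α _ => mul_le_of_le_one_left (norm_nonneg _) (gaussK_le_one 1 α)).trans habs
      rw [hC]
      linarith [hoff hconv]
  rw [weightedTriples, ← sum_filter_add_sum_filter_not (triples P)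
    (fun z => |form a b c z - μ| < η)] at h2
  have h4 : ∑ z ∈ (triples P).filter (fun z => |form a b c z - μ| < η),
      weight z * gaussW w (form a b c z - μ) ≤ #(near a b c μ η P) * Real.log P ^ 3 :=
    (sum_le_sum fun z _ => mul_le_of_le_one_right (weight_nonneg z) (Real.exp_le_one_iff.2
      (div_nonpos_of_nonpos_of_nonneg (mul_nonpos_of_nonpos_of_nonneg
        (neg_nonpos.2 Real.pi_pos.le) (sq_nonneg _)) (sq_nonneg _)))).trans
      (sum_weight_le _ P (filter_subset _ _))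
  have h5 : ∑ z ∈ (triples P).filter (fun z => ¬|form a b c z - μ| < η),
      weight z * gaussW w (form a b c z - μ) ≤
        Real.exp (-π * (η ^ 2 / (2 * w ^ 2))) * weightedTriples a b c P 1 μ := by
    rw [weightedTriples, mul_sum]
    refine (sum_le_sum (g := fun z => Real.exp (-π * (η ^ 2 / (2 * w ^ 2))) *
      (weight z * gaussW 1 (form a b c z - μ))) fun z hz => ?_).trans
        (sum_le_sum_of_subset_of_nonneg (filter_subset _ _) fun z _ _ =>
          mul_nonneg (Real.exp_pos _).le (mul_nonneg (weight_nonneg z) (gaussW_pos _ _).le))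
    rw [mul_left_comm]
    refine mul_le_mul_of_nonneg_left ?_ (weight_nonneg z)
    obtain ⟨u, hu⟩ : ∃ u, u = form a b c z - μ := ⟨_, rfl⟩
    have hz' := (mem_filter.1 hz).2
    rw [← hu, not_lt] at hz'
    rw [← hu, gaussW, gaussW, ← Real.exp_add, Real.exp_le_exp, one_pow, div_one]
    have hη2 : η ^ 2 ≤ u ^ 2 := sq_le_sq.2 (by rwa [abs_of_pos hη])
    have hA : η ^ 2 / (2 * w ^ 2) ≤ u ^ 2 / (2 * w ^ 2) :=
      div_le_div_of_nonneg_right hη2 (by positivity)
    have hB : u ^ 2 ≤ u ^ 2 / (2 * w ^ 2) := by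
      rw [le_div_iff₀ (by positivity)]
      exact mul_le_of_le_one_right (sq_nonneg u) (by linarith)
    have e : -π * u ^ 2 / w ^ 2 = -π * (u ^ 2 / (2 * w ^ 2)) + -π * (u ^ 2 / (2 * w ^ 2)) := by
      field_simp
      ring
    rw [e]
    have := mul_le_mul_of_nonneg_left hA Real.pi_pos.le
    have := mul_le_mul_of_nonneg_left hB Real.pi_pos.le
    linarith
  have h6 := mul_le_mul_of_nonneg_left h3 (Real.exp_pos (-π * (η ^ 2 / (2 * w ^ 2)))).le
  have h7 := mul_le_mul_of_nonneg_right hw (show 0 ≤ Y by rw [hY]; positivity)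
  rw [mul_div_assoc', div_le_iff₀ (by positivity)]
  linarith

/-! ### Any order and signs -/

theorem frequently_count_ge {a b c : ℝ} (ha : 0 < a) (hb : b < 0) (hc : c ≠ 0)
    (hirr : Irrational (a / b)) (μ : ℝ) {η : ℝ} (hη : 0 < η) :
    ∃ g : ℝ, 0 < g ∧ ∃ᶠ P : ℕ in atTop,
      g * ((P : ℝ) ^ 2 / Real.log P ^ 3) ≤ #(near a b c μ η P) := by
  obtain ⟨g, hg, h⟩ := exists_count_ge ha hb hc μ hη
  exact ⟨g, hg, ((frequently_convergentSquare hirr).and_eventually h).mono fun P hP => hP.2 hP.1⟩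

theorem card_near_neg (a b c μ η : ℝ) (P : ℕ) :
    #(near (-a) (-b) (-c) (-μ) η P) = #(near a b c μ η P) := by
  refine congrArg card (filter_congr fun z _ => ?_)
  rw [form, form, ← abs_neg]
  ring_nf

theorem card_near_swap (a b c μ η : ℝ) (P : ℕ) :
    #(near a c b μ η P) = #(near a b c μ η P) := by
  refine card_bij' (fun z _ => (z.1, z.2.2, z.2.1)) (fun z _ => (z.1, z.2.2, z.2.1))
    (fun z hz => ?_) (fun z hz => ?_) (fun z _ => rfl) (fun z _ => rfl)
  all_goals
    simp only [near, triples, form, mem_filter, mem_product] at hz ⊢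
    obtain ⟨⟨h1, h2, h3⟩, h4⟩ := hz
    exact ⟨⟨h1, h3, h2⟩, by rwa [add_right_comm]⟩

theorem card_near_rotate (a b c μ η : ℝ) (P : ℕ) :
    #(near b c a μ η P) = #(near a b c μ η P) := by
  refine card_bij' (fun z _ => (z.2.2, z.1, z.2.1)) (fun z _ => (z.2.1, z.2.2, z.1))
    (fun z hz => ?_) (fun z hz => ?_) (fun z _ => rfl) (fun z _ => rfl)
  · simp only [near, triples, form, mem_filter, mem_product] at hz ⊢
    obtain ⟨⟨h1, h2, h3⟩, h4⟩ := hz
    exact ⟨⟨h3, h1, h2⟩, by rwa [add_assoc, add_comm]⟩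
  · simp only [near, triples, form, mem_filter, mem_product] at hz ⊢
    obtain ⟨⟨h1, h2, h3⟩, h4⟩ := hz
    refine ⟨⟨h2, h3, h1⟩, ?_⟩
    rwa [add_comm, ← add_assoc]

theorem frequently_of_opposite {a b c : ℝ} (hab : a * b < 0) (hc : c ≠ 0)
    (hirr : Irrational (a / b)) (μ : ℝ) {η : ℝ} (hη : 0 < η) :
    ∃ g : ℝ, 0 < g ∧ ∃ᶠ P : ℕ in atTop,
      g * ((P : ℝ) ^ 2 / Real.log P ^ 3) ≤ #(near a b c μ η P) := by
  rcases mul_neg_iff.1 hab with ⟨ha, hb⟩ | ⟨ha, hb⟩
  · exact frequently_count_ge ha hb hc hirr μ hη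
  · obtain ⟨g, hg, h⟩ := frequently_count_ge (neg_pos.2 ha) (neg_lt_zero.2 hb) (neg_ne_zero.2 hc)
      (by rwa [neg_div_neg_eq]) (-μ) hη
    exact ⟨g, hg, h.mono fun P hP => by rwa [card_near_neg] at hP⟩

/-- **Linear forms in three primes.** -/
theorem exists_frequently {a b c : ℝ} (ha : a ≠ 0) (hb : b ≠ 0) (hc : c ≠ 0)
    (hsign : a * b < 0 ∨ a * c < 0) (hirr : Irrational (a / b)) (μ : ℝ) {η : ℝ} (hη : 0 < η) :
    ∃ g : ℝ, 0 < g ∧ ∃ᶠ P : ℕ in atTop,
      g * ((P : ℝ) ^ 2 / Real.log P ^ 3) ≤ #(near a b c μ η P) := by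
  by_cases hab : a * b < 0
  · exact frequently_of_opposite hab hc hirr μ hη
  have hac : a * c < 0 := hsign.resolve_left hab
  have hab' : 0 < a * b := lt_of_le_of_ne (not_lt.1 hab) (mul_ne_zero ha hb).symm
  have hbc : b * c < 0 := by
    by_contra hle
    have := mul_nonneg hab'.le (not_lt.1 hle)
    nlinarith [mul_pos_of_neg_of_neg hac hac, mul_self_pos.2 hb, mul_self_pos.2 ha]
  by_cases h : Irrational (a / c)
  · obtain ⟨g, hg, h'⟩ := frequently_of_opposite hac hb h μ hη
    exact ⟨g, hg, h'.mono fun P hP => by rwa [card_near_swap] at hP⟩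
  · have hirr' : Irrational (b / c) := by
      intro hb'
      obtain ⟨x, hx⟩ := not_not.1 h
      obtain ⟨y, hy⟩ := hb'
      refine hirr ⟨x / y, ?_⟩
      push_cast
      rw [hx, hy]
      field_simp
    obtain ⟨g, hg, h'⟩ := frequently_of_opposite hbc ha hirr' μ hη
    exact ⟨g, hg, h'.mono fun P hP => by rwa [card_near_rotate] at hP⟩

end FA.LinearFormsPrimes

end
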