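import Fermat.Agent.LinearFormsPrimes.Minor

/-!
# Near the origin

For `|α| ≤ (log P)¹⁷ / P` the sum `S (l α)` is `O (P / (1 + P |α|))` up to `P / (log P)⁶` by the
prime number theorem with an error term, so `S (a α) S (b α) S (c α)` is integrable there to
`O (P²)`.
-/

set_option autoImplicit false

noncomputable section

namespace FA.LinearFormsPrimes

open Finset Filter Topology MeasureTheory
open FA.ThreePrimes (eAdd twist logOne one_le_logOne geomSum nearDist clip)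
open scoped Real ArithmeticFunction.vonMangoldt

theorem tendsto_majorWidth : Tendsto majorWidth atTop (𝓝 0) := by
  refine Metric.tendsto_nhds.2 fun ε hε => ?_
  filter_upwards [eventually_logOne_pow_le 17 (show (0 : ℝ) < 1 / 2 by norm_num) hε,
    eventually_ge_atTop 2] with P hP hP2
  rw [Real.dist_eq, sub_zero, abs_of_nonneg (majorWidth_nonneg P)]
  have hP0 : (0 : ℝ) < P := by exact_mod_cast (show 0 < P by omega)
  have hlt : (P : ℝ) ^ (1 / 2 : ℝ) < P := by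
    conv_rhs => rw [← Real.rpow_one (P : ℝ)]
    exact Real.rpow_lt_rpow_of_exponent_lt (by exact_mod_cast hP2) (by norm_num)
  rw [majorWidth, div_lt_iff₀ hP0]
  exact lt_of_le_of_lt hP (mul_lt_mul_of_pos_left hlt hε)

/-- **The prime number theorem for `S` near zero.** -/
theorem exists_logSum_approx : ∃ C : ℝ, 0 < C ∧ ∀ᶠ P : ℕ in atTop, ∀ θ : ℝ,
    |θ| * P ≤ Real.log P ^ 18 → ‖logSum P θ - geomSum P θ‖ ≤ C * (P / logOne P ^ 6) := by
  obtain ⟨C, hC, h⟩ := ThreePrimes.exists_major_approx 18 6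
  refine ⟨64 * C + 2, by positivity, ?_⟩
  filter_upwards [eventually_logOne_le_two_log,
    eventually_logOne_pow_le 7 (show (0 : ℝ) < 1 / 2 by norm_num) one_pos, eventually_ge_atTop 2]
    with P hlog hroot hP θ hθ
  obtain ⟨L, hL⟩ : ∃ L, L = logOne P := ⟨_, rfl⟩
  obtain ⟨l, hl⟩ : ∃ l, l = Real.log P := ⟨_, rfl⟩
  rw [← hL, ← hl] at hlog
  rw [← hL, one_mul, ← Real.sqrt_eq_rpow] at hroot
  rw [← hL]
  have hL1 : 1 ≤ L := hL ▸ one_le_logOne P
  have hl1 : 1 / 2 ≤ l := by linarith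
  have hlL : l ≤ L := by rw [hl, hL, ThreePrimes.logOne]; linarith
  have hq : ((1 : ℕ) : ℝ) ≤ Real.log P ^ 18 := by
    rw [Nat.cast_one]
    refine one_le_pow₀ ?_
    rw [Real.le_log_iff_exp_le (Nat.cast_pos.2 (by omega))]
    have h3 : 3 ≤ P := by
      by_contra h3
      have : P = 2 := by omega
      subst this
      rw [hl] at hlog
      rw [hL, ThreePrimes.logOne] at hlog
      push_cast at hlog
      linarith [Real.log_two_lt_d9]
    have : (3 : ℝ) ≤ P := by exact_mod_cast h3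
    linarith [Real.exp_one_lt_d9]
  have h1 := h P 1 0 θ hP (isUnit_of_subsingleton _) hq hθ
  rw [Int.cast_zero, zero_div, zero_add, Nat.totient_one,
    ThreePrimes.moebiusR_isMultiplicative.map_one, Nat.cast_one, div_one, Complex.ofReal_one,
    one_mul, ← hl] at h1
  have h2 : ‖logSum P θ - twist θ Λ P‖ ≤ 2 * √(P : ℝ) * l := by
    refine le_trans ?_ ((le_abs_self _).trans (hl ▸ Chebyshev.abs_psi_sub_theta_le_sqrt_mul_log
      (x := P) (by exact_mod_cast (show 1 ≤ P by omega))))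
    rw [Chebyshev.psi_sub_theta_eq_sum_not_prime, Nat.floor_natCast, logSum, twist]
    have hset : Equidist.primeSet P = (Ioc 0 P).filter Nat.Prime := by
      ext p
      simp only [Equidist.primeSet, mem_filter, mem_range, mem_Ioc]
      exact ⟨fun h => ⟨⟨h.2.pos, by omega⟩, h.2⟩, fun h => ⟨by omega, h.2⟩⟩
    rw [← sum_filter_add_sum_filter_not (Ioc 0 P) Nat.Prime
      (fun n => (Λ n : ℂ) * eAdd (n * θ)), ← hset,
      sum_congr rfl (f := fun n : ℕ => (Λ n : ℂ) * eAdd (n * θ))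
        (g := fun p : ℕ => (Real.log p : ℂ) * eAdd (p * θ)) fun p hp => by
        rw [ArithmeticFunction.vonMangoldt_apply_prime (mem_filter.1 hp).2],
      sub_add_cancel_left, norm_neg]
    refine (norm_sum_le _ _).trans (le_of_eq (sum_congr rfl fun n _ => ?_))
    rw [norm_mul, ThreePrimes.norm_eAdd, mul_one, Complex.norm_real,
      Real.norm_of_nonneg ArithmeticFunction.vonMangoldt_nonneg]
  have h3 : C * ((P : ℝ) / l ^ 6) ≤ 64 * C * (P / L ^ 6) := by
    rw [show 64 * C * ((P : ℝ) / L ^ 6) = C * (P / (L / 2) ^ 6) by ring]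
    refine mul_le_mul_of_nonneg_left (div_le_div_of_nonneg_left (Nat.cast_nonneg P)
      (by positivity) (pow_le_pow_left₀ (by linarith) (by linarith) 6)) hC.le
  have h4 : 2 * √(P : ℝ) * l ≤ 2 * (P / L ^ 6) := by
    rw [mul_assoc, mul_div_assoc', le_div_iff₀ (by positivity)]
    calc 2 * (√(P : ℝ) * l) * L ^ 6 ≤ 2 * (√(P : ℝ) * L) * L ^ 6 := by gcongr
      _ = 2 * √(P : ℝ) * L ^ 7 := by ring
      _ ≤ 2 * √(P : ℝ) * √(P : ℝ) := mul_le_mul_of_nonneg_left hroot (by positivity)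
      _ = _ := by rw [mul_assoc, Real.mul_self_sqrt (Nat.cast_nonneg P)]
  have h5 := norm_sub_le_norm_sub_add_norm_sub (logSum P θ) (twist θ Λ P) (geomSum P θ)
  linarith

theorem exists_logSum_bound {l : ℝ} (hl : l ≠ 0) : ∃ E : ℝ, 0 < E ∧ ∀ᶠ P : ℕ in atTop,
    ∀ α : ℝ, |α| ≤ majorWidth P →
      ‖logSum P (l * α)‖ ≤ E * (P * (1 / (1 + P * |α|) + 1 / logOne P ^ 6)) := by
  obtain ⟨C, hC, happ⟩ := exists_logSum_approx
  have hl0 : 0 < |l| := abs_pos.2 hl
  refine ⟨4 + 1 / |l| + C, by positivity, ?_⟩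
  filter_upwards [happ, eventually_logOne_le_two_log,
    tendsto_logOne.eventually (eventually_ge_atTop (|l| * 2 ^ 18)),
    tendsto_majorWidth.eventually (eventually_le_nhds (show 0 < 1 / (2 * |l|) by positivity)),
    eventually_ge_atTop 1] with P hP hlog hLbig hw hP1 α hα
  have hP0 : (0 : ℝ) < P := Nat.cast_pos.2 hP1
  obtain ⟨L, hL⟩ : ∃ L, L = logOne P := ⟨_, rfl⟩
  have hL1 : 1 ≤ L := hL ▸ one_le_logOne P
  rw [← hL] at hP hlog hLbig ⊢
  obtain ⟨y, hy⟩ : ∃ y, y = (P : ℝ) * |α| := ⟨_, rfl⟩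
  rw [← hy]
  have hy0 : 0 ≤ y := hy ▸ by positivity
  have hrest : 0 ≤ (4 + 1 / |l| + C) * ((P : ℝ) * (1 / L ^ 6)) := by positivity
  rw [mul_add, mul_add]
  rcases le_or_gt y 1 with hy1 | hy1
  · refine ((norm_logSum_le P _).trans ?_).trans (le_add_of_nonneg_right hrest)
    have h1 : 1 / 2 ≤ 1 / (1 + y) := one_div_le_one_div_of_le (by linarith) (by linarith)
    calc 2 * (P : ℝ) = 4 * (P * (1 / 2)) := by ring
      _ ≤ _ := mul_le_mul (by have : 0 ≤ 1 / |l| := (by positivity); linarith)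
        (mul_le_mul_of_nonneg_left h1 hP0.le) (by positivity) (by positivity)
  have hθ : |l * α| * P ≤ Real.log P ^ 18 := by
    rw [abs_mul, mul_assoc]
    have h1 : |α| * P ≤ L ^ 17 := by
      rw [majorWidth, ← hL, le_div_iff₀ hP0] at hα
      exact hα
    refine (mul_le_mul_of_nonneg_left h1 hl0.le).trans ?_
    have h2 : |l| * 2 ^ 18 * L ^ 17 ≤ L ^ 18 := by
      rw [pow_succ' L 17]
      exact mul_le_mul_of_nonneg_right hLbig (by positivity)
    have h3 := pow_le_pow_left₀ (by linarith) hlog 18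
    rw [mul_pow] at h3
    refine le_of_mul_le_mul_right ?_ (show (0 : ℝ) < 2 ^ 18 by positivity)
    linarith
  have h1 := hP (l * α) hθ
  have hnear : |l * α| ≤ 1 / 2 := by
    rw [abs_mul]
    calc |l| * |α| ≤ |l| * (1 / (2 * |l|)) := mul_le_mul_of_nonneg_left (hα.trans hw) hl0.le
      _ = _ := by field_simp
  have hα0 : 0 < |α| := by
    rcases eq_or_lt_of_le (abs_nonneg α) with h | h
    · rw [← h, mul_zero] at hy; linarith
    · exact h
  have hgeom : ‖geomSum P (l * α)‖ ≤ 1 / |l| * (P * (1 / (1 + y))) := by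
    refine (ThreePrimes.norm_geom_le (l * α) 0 P).trans
      ((ThreePrimes.clip_le_inv (δ := |l * α|) (abs_pos.2 (mul_ne_zero hl (abs_pos.1 hα0)))
        (ThreePrimes.nearDist_eq_abs hnear).ge).trans ?_)
    rw [abs_mul, show 1 / |l| * ((P : ℝ) * (1 / (1 + y))) = P / (|l| * (1 + y)) by field_simp,
      div_le_div_iff₀ (by positivity) (by positivity), one_mul]
    have : |l| * (1 + y) ≤ |l| * (2 * y) := mul_le_mul_of_nonneg_left (by linarith) hl0.le
    rw [hy] at this ⊢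
    linarith
  have h2 := norm_le_norm_add_norm_sub' (logSum P (l * α)) (geomSum P (l * α))
  have h3 : 1 / |l| * ((P : ℝ) * (1 / (1 + y))) ≤ (4 + 1 / |l| + C) * (P * (1 / (1 + y))) :=
    mul_le_mul_of_nonneg_right (by linarith) (by positivity)
  have h4 : C * ((P : ℝ) / L ^ 6) ≤ (4 + 1 / |l| + C) * (P * (1 / L ^ 6)) := by
    rw [mul_one_div]
    refine mul_le_mul_of_nonneg_right ?_ (by positivity)
    have : 0 ≤ 1 / |l| := by positivity
    linarith
  linarith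

/-- **The product near zero.** -/
theorem exists_product_bound {a b c : ℝ} (ha : a ≠ 0) (hb : b ≠ 0) (hc : c ≠ 0) :
    ∃ E : ℝ, 0 < E ∧ ∀ᶠ P : ℕ in atTop, ∀ α ∈ Set.Icc (-majorWidth P) (majorWidth P),
      ‖tripleProd a b c P α‖ ≤
        E * (P : ℝ) ^ 3 * ((1 / (1 + P * |α|)) ^ 3 + 1 / logOne P ^ 18) := by
  obtain ⟨E₁, hE₁, h₁⟩ := exists_logSum_bound ha
  obtain ⟨E₂, hE₂, h₂⟩ := exists_logSum_bound hb
  obtain ⟨E₃, hE₃, h₃⟩ := exists_logSum_bound hc
  refine ⟨4 * (E₁ * E₂ * E₃), by positivity, ?_⟩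
  filter_upwards [h₁, h₂, h₃] with P g₁ g₂ g₃ α hα
  obtain ⟨u, hu⟩ : ∃ u, u = 1 / (1 + (P : ℝ) * |α|) := ⟨_, rfl⟩
  obtain ⟨v, hv⟩ : ∃ v, v = 1 / logOne P ^ 6 := ⟨_, rfl⟩
  have hu0 : 0 ≤ u := hu ▸ by positivity
  have hv0 : 0 ≤ v := hv ▸ div_nonneg zero_le_one (pow_nonneg
    (zero_le_one.trans (one_le_logOne P)) 6)
  have e : 1 / logOne P ^ 18 = v ^ 3 := by rw [hv, div_pow, one_pow, ← pow_mul]
  have hαw : |α| ≤ majorWidth P := abs_le.2 hα
  rw [e, ← hu, tripleProd, norm_mul, norm_mul]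
  have m₁ := g₁ α hαw
  have m₂ := g₂ α hαw
  have m₃ := g₃ α hαw
  rw [← hu, ← hv] at m₁ m₂ m₃
  refine (mul_le_mul (mul_le_mul m₁ m₂ (norm_nonneg _) (by positivity)) m₃ (norm_nonneg _)
    (by positivity)).trans ?_
  have hsq : (u + v) ^ 3 ≤ 4 * (u ^ 3 + v ^ 3) := by
    have := mul_nonneg (add_nonneg hu0 hv0) (sq_nonneg (u - v))
    linarith
  calc E₁ * (P * (u + v)) * (E₂ * (P * (u + v))) * (E₃ * (P * (u + v)))
      = E₁ * E₂ * E₃ * (P : ℝ) ^ 3 * (u + v) ^ 3 := by ring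
    _ ≤ E₁ * E₂ * E₃ * (P : ℝ) ^ 3 * (4 * (u ^ 3 + v ^ 3)) :=
        mul_le_mul_of_nonneg_left hsq (by positivity)
    _ = _ := by ring

theorem cube_inv_le {y : ℝ} (hy : 0 ≤ y) : (1 / (1 + y)) ^ 3 ≤ (1 + y ^ 2)⁻¹ := by
  rw [div_pow, one_pow, ← one_div]
  refine one_div_le_one_div_of_le (by positivity) ?_
  have := pow_nonneg hy 3
  have := sq_nonneg y
  linarith

theorem cube_inv_le_div {y A : ℝ} (hA : 0 < A) (hy : A ≤ y) :
    (1 / (1 + y)) ^ 3 ≤ 1 / A * (1 + y ^ 2)⁻¹ := by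
  have hy0 : 0 ≤ y := hA.le.trans hy
  rw [div_pow, one_pow, ← one_div, one_div_mul_one_div]
  refine one_div_le_one_div_of_le (by positivity) ?_
  calc A * (1 + y ^ 2) ≤ (1 + y) * (1 + y ^ 2) := by gcongr; linarith
    _ ≤ _ := by
      have := mul_nonneg hy0 (add_nonneg zero_le_one hy0)
      linarith

/-- An integrand below `P³ (u (1 + (P α)²)⁻¹ + v)` on the major interval. -/
theorem integral_major_le {P : ℕ} (hP : 1 ≤ P) {F : ℝ → ℝ} (hF : Continuous F) {u v : ℝ}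
    (hu : 0 ≤ u) (h : ∀ α ∈ Set.Icc (-majorWidth P) (majorWidth P),
      F α ≤ (P : ℝ) ^ 3 * (u * (1 + ((P : ℝ) * α) ^ 2)⁻¹ + v)) :
    ∫ α in Set.Icc (-majorWidth P) (majorWidth P), F α ≤
      (P : ℝ) ^ 2 * (u * π + 2 * (majorWidth P * P) * v) := by
  have hP0 : (0 : ℝ) < P := Nat.cast_pos.2 hP
  obtain ⟨δ, hδ⟩ : ∃ δ, δ = majorWidth P := ⟨_, rfl⟩
  rw [← hδ] at h ⊢
  have hδ0 : 0 ≤ δ := hδ ▸ majorWidth_nonneg P
  have hint : Integrable fun α : ℝ => (P : ℝ) ^ 3 * u * (1 + ((P : ℝ) * α) ^ 2)⁻¹ :=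
    (integrable_inv_one_add_sq.comp_mul_left' hP0.ne').const_mul _
  have hconst : IntegrableOn (fun _ : ℝ => (P : ℝ) ^ 3 * v) (Set.Icc (-δ) δ) :=
    integrableOn_const measure_Icc_lt_top.ne
  refine (setIntegral_mono_on (g := fun α =>
    (P : ℝ) ^ 3 * u * (1 + ((P : ℝ) * α) ^ 2)⁻¹ + (P : ℝ) ^ 3 * v) hF.integrableOn_Icc
    (hint.integrableOn.add hconst) measurableSet_Icc fun α hα => ?_).trans ?_
  · have := h α hα
    linarith
  rw [integral_add hint.integrableOn hconst, setIntegral_const, Measure.real, Real.volume_Icc,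
    ENNReal.toReal_ofReal (by linarith), smul_eq_mul]
  have h1 := setIntegral_le_integral (s := Set.Icc (-δ) δ) hint
    (ae_of_all _ fun α => by positivity)
  have h2 : ∫ α : ℝ, (P : ℝ) ^ 3 * u * (1 + ((P : ℝ) * α) ^ 2)⁻¹ = (P : ℝ) ^ 2 * (u * π) := by
    rw [integral_const_mul, Measure.integral_comp_mul_left (fun x : ℝ => (1 + x ^ 2)⁻¹) (P : ℝ),
      integral_univ_inv_one_add_sq, smul_eq_mul, abs_of_pos (inv_pos.2 hP0)]
    field_simp
  linarith

theorem majorWidth_mul_le {P : ℕ} (hP : 1 ≤ P) :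
    majorWidth P * P * (1 / logOne P ^ 18) ≤ 1 / logOne P := by
  have hP0 : (0 : ℝ) < P := Nat.cast_pos.2 hP
  have hL : 0 < logOne P := zero_lt_one.trans_le (one_le_logOne P)
  refine le_of_eq ?_
  rw [majorWidth]
  field_simp

/-- **The absolute major integral.** -/
theorem exists_major_abs {a b c : ℝ} (ha : a ≠ 0) (hb : b ≠ 0) (hc : c ≠ 0) :
    ∃ C : ℝ, 0 < C ∧ ∀ᶠ P : ℕ in atTop,
      ∫ α in Set.Icc (-majorWidth P) (majorWidth P), ‖tripleProd a b c P α‖ ≤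
        C * (P : ℝ) ^ 2 := by
  obtain ⟨E, hE, h⟩ := exists_product_bound ha hb hc
  refine ⟨E * (π + 2), by positivity, ?_⟩
  filter_upwards [h, eventually_ge_atTop 1] with P hP hP1
  refine (integral_major_le hP1 (continuous_tripleProd a b c P).norm hE.le
    (v := E * (1 / logOne P ^ 18)) fun α hα => (hP α hα).trans ?_).trans ?_
  · have h1 := cube_inv_le (show 0 ≤ (P : ℝ) * |α| by positivity)
    rw [show ((P : ℝ) * α) ^ 2 = (P * |α|) ^ 2 by rw [mul_pow, mul_pow, sq_abs],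
      show E * (P : ℝ) ^ 3 * ((1 / (1 + P * |α|)) ^ 3 + 1 / logOne P ^ 18) =
        (P : ℝ) ^ 3 * (E * (1 / (1 + P * |α|)) ^ 3 + E * (1 / logOne P ^ 18)) by ring]
    gcongr
  · have h2 := majorWidth_mul_le hP1
    have h3 : 1 / logOne P ≤ 1 := (div_le_one (zero_lt_one.trans_le (one_le_logOne P))).2
      (one_le_logOne P)
    have h4 := mul_le_mul_of_nonneg_left (h2.trans h3)
      (show 0 ≤ 2 * E * (P : ℝ) ^ 2 by positivity)
    linarith

end FA.LinearFormsPrimes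

end
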