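import Fermat.Agent.DiophantineInequality.Gaussian
import Fermat.Agent.PrimeFractionalParts.Sums

/-!
# Triples of primes with a Gaussian weight

`∑ log p₁ log p₂ log p₃ exp (- π (a p₁ + b p₂ + c p₃ - μ)² / η²)` is `η` times the integral of
`exp (- π η² α²) S (a α) S (b α) S (c α) e (- μ α)`, `S θ = ∑_{p ≤ P} log p e (p θ)`; and the
second moment of `S` for that kernel is `O (P log P)`, by the diagonal.
-/

set_option autoImplicit false

noncomputable section

namespace FA.LinearFormsPrimes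

open Finset MeasureTheory ComplexConjugate
open FA.ThreePrimes (eAdd norm_eAdd eAdd_add conj_eAdd logOne one_le_logOne)
open FA.DiophantineInequality (gaussW gaussK gaussW_pos gaussK_pos continuous_eAdd
  integrable_kernel_eAdd integrable_kernel_mul_real integral_gaussK_mul_eAdd
  exists_sum_gaussW_int_le)
open FA.Equidist (primeSet)
open scoped Real

/-- `∑_{p ≤ P} log p e (p θ)`. -/
def logSum (P : ℕ) (θ : ℝ) : ℂ := ∑ p ∈ primeSet P, (Real.log p : ℂ) * eAdd (p * θ)

/-- `a p₁ + b p₂ + c p₃`. -/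
def form (a b c : ℝ) (z : ℕ × ℕ × ℕ) : ℝ := a * z.1 + b * z.2.1 + c * z.2.2

/-- The triples of primes up to `P`. -/
def triples (P : ℕ) : Finset (ℕ × ℕ × ℕ) := primeSet P ×ˢ primeSet P ×ˢ primeSet P

/-- `log p₁ log p₂ log p₃`. -/
def weight (z : ℕ × ℕ × ℕ) : ℝ := Real.log z.1 * Real.log z.2.1 * Real.log z.2.2

theorem weight_nonneg (z : ℕ × ℕ × ℕ) : 0 ≤ weight z :=
  mul_nonneg (mul_nonneg (Real.log_natCast_nonneg _) (Real.log_natCast_nonneg _))
    (Real.log_natCast_nonneg _)

/-- `S (a α) S (b α) S (c α)`. -/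
def tripleProd (a b c : ℝ) (P : ℕ) (α : ℝ) : ℂ :=
  logSum P (a * α) * logSum P (b * α) * logSum P (c * α)

/-- The three squares. -/
def sumSq (a b c : ℝ) (P : ℕ) (α : ℝ) : ℝ :=
  ‖logSum P (a * α)‖ ^ 2 + ‖logSum P (b * α)‖ ^ 2 + ‖logSum P (c * α)‖ ^ 2

theorem sum_log_le (P : ℕ) : ∑ p ∈ primeSet P, Real.log p ≤ 2 * (P : ℝ) := by
  have h : ∑ p ∈ primeSet P, Real.log p = Chebyshev.theta P := by
    rw [Chebyshev.theta, Nat.floor_natCast]
    refine sum_congr ?_ fun _ _ => rfl
    ext p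
    simp only [Equidist.primeSet, mem_filter, mem_range, mem_Ioc]
    exact ⟨fun h => ⟨⟨h.2.pos, by omega⟩, h.2⟩, fun h => ⟨by omega, h.2⟩⟩
  rw [h]
  refine (Chebyshev.theta_le_log4_mul_x (Nat.cast_nonneg P)).trans
    (mul_le_mul_of_nonneg_right ?_ (Nat.cast_nonneg P))
  rw [show (4 : ℝ) = 2 ^ 2 by norm_num, Real.log_pow]
  push_cast
  linarith [Real.log_two_lt_d9]

theorem norm_logSum_le (P : ℕ) (θ : ℝ) : ‖logSum P θ‖ ≤ 2 * (P : ℝ) := by
  refine ((norm_sum_le _ _).trans (le_of_eq (sum_congr rfl fun p _ => ?_))).trans (sum_log_le P)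
  rw [norm_mul, norm_eAdd, mul_one, Complex.norm_real,
    Real.norm_of_nonneg (Real.log_natCast_nonneg p)]

theorem continuous_logSum (P : ℕ) : Continuous (logSum P) := by
  unfold logSum
  exact continuous_finsetSum _ fun p _ =>
    continuous_const.mul (continuous_eAdd.comp (continuous_const.mul continuous_id))

theorem continuous_logSum_mul (P : ℕ) (l : ℝ) : Continuous fun α => logSum P (l * α) :=
  (continuous_logSum P).comp (continuous_const.mul continuous_id)

theorem continuous_tripleProd (a b c : ℝ) (P : ℕ) : Continuous (tripleProd a b c P) :=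
  ((continuous_logSum_mul P a).mul (continuous_logSum_mul P b)).mul (continuous_logSum_mul P c)

theorem norm_tripleProd_le (a b c : ℝ) (P : ℕ) (α : ℝ) :
    ‖tripleProd a b c P α‖ ≤ (2 * (P : ℝ)) ^ 3 := by
  rw [tripleProd, norm_mul, norm_mul, pow_succ, pow_two]
  exact mul_le_mul (mul_le_mul (norm_logSum_le _ _) (norm_logSum_le _ _) (norm_nonneg _)
    (by positivity)) (norm_logSum_le _ _) (norm_nonneg _) (by positivity)

theorem norm_tripleProd_le_of_left (a b c : ℝ) (P : ℕ) (α : ℝ) {X : ℝ}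
    (h : ‖logSum P (a * α)‖ ≤ X ∨ ‖logSum P (b * α)‖ ≤ X) :
    ‖tripleProd a b c P α‖ ≤ X * sumSq a b c P α := by
  rw [tripleProd, norm_mul, norm_mul, sumSq]
  have key : ∀ u v w : ℝ, 0 ≤ u → 0 ≤ v → 0 ≤ w → (u ≤ X ∨ v ≤ X) →
      u * v * w ≤ X * (u ^ 2 + v ^ 2 + w ^ 2) := fun u v w hu hv hw h => by
    have hX : 0 ≤ X := by rcases h with h | h <;> linarith
    rcases h with h | h
    · calc u * v * w = u * (v * w) := by ring
        _ ≤ X * (v * w) := mul_le_mul_of_nonneg_right h (mul_nonneg hv hw)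
        _ ≤ _ := mul_le_mul_of_nonneg_left
          (by linarith [two_mul_le_add_sq v w, mul_nonneg hv hw, sq_nonneg u]) hX
    · calc u * v * w = v * (u * w) := by ring
        _ ≤ X * (u * w) := mul_le_mul_of_nonneg_right h (mul_nonneg hu hw)
        _ ≤ _ := mul_le_mul_of_nonneg_left
          (by linarith [two_mul_le_add_sq u w, mul_nonneg hu hw, sq_nonneg v]) hX
  exact key _ _ _ (norm_nonneg _) (norm_nonneg _) (norm_nonneg _) h

theorem tripleProd_eq (a b c : ℝ) (P : ℕ) (α : ℝ) :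
    tripleProd a b c P α = ∑ z ∈ triples P, (weight z : ℂ) * eAdd (form a b c z * α) := by
  rw [tripleProd, logSum, logSum, logSum, sum_mul_sum, sum_mul, triples, sum_product]
  refine sum_congr rfl fun x _ => ?_
  rw [sum_mul, sum_product]
  refine sum_congr rfl fun y _ => ?_
  rw [mul_sum]
  refine sum_congr rfl fun w _ => ?_
  rw [weight, form]
  simp only [add_mul, eAdd_add]
  push_cast
  ring_nf

/-- The weighted count. -/
def weightedTriples (a b c : ℝ) (P : ℕ) (η μ : ℝ) : ℝ :=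
  ∑ z ∈ triples P, weight z * gaussW η (form a b c z - μ)

/-- **The count as an integral.** -/
theorem weightedTriples_div_eq (a b c : ℝ) (P : ℕ) {η : ℝ} (hη : 0 < η) (μ : ℝ) :
    ((weightedTriples a b c P η μ / η : ℝ) : ℂ) =
      ∫ α : ℝ, (gaussK η α : ℂ) * (tripleProd a b c P α * eAdd (-(μ * α))) := by
  have e : ∀ α : ℝ, (gaussK η α : ℂ) * (tripleProd a b c P α * eAdd (-(μ * α))) =
      ∑ z ∈ triples P,
        (weight z : ℂ) * ((gaussK η α : ℂ) * eAdd ((form a b c z - μ) * α)) := fun α => by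
    rw [tripleProd_eq, sum_mul, mul_sum]
    refine sum_congr rfl fun z _ => ?_
    rw [mul_assoc, ← eAdd_add]
    ring_nf
  rw [integral_congr_ae (ae_of_all _ e), integral_finsetSum _ fun z _ =>
    (integrable_kernel_eAdd hη _).const_mul _]
  simp only [integral_const_mul, integral_gaussK_mul_eAdd hη]
  rw [weightedTriples, sum_div, Complex.ofReal_sum]
  refine sum_congr rfl fun z _ => ?_
  rw [← Complex.ofReal_mul]
  congr 1
  ring

theorem integrable_sq {η : ℝ} (hη : 0 < η) (P : ℕ) (l : ℝ) :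
    Integrable fun α => gaussK η α * ‖logSum P (l * α)‖ ^ 2 :=
  integrable_kernel_mul_real hη ((continuous_logSum_mul P l).norm.pow 2)
    (B := (2 * (P : ℝ)) ^ 2) fun α => by
      rw [Real.norm_of_nonneg (by positivity)]
      exact pow_le_pow_left₀ (norm_nonneg _) (norm_logSum_le _ _) 2

/-- **The second moment.** -/
theorem exists_sq_moment {η l : ℝ} (hη : 0 < η) (hl : l ≠ 0) : ∃ G : ℝ, 0 < G ∧ ∀ P : ℕ,
    ∫ α : ℝ, gaussK η α * ‖logSum P (l * α)‖ ^ 2 ≤ G * ((P : ℝ) * logOne P) := by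
  obtain ⟨G, hG, hGS⟩ := exists_sum_gaussW_int_le hη hl
  refine ⟨2 * G / η, by positivity, fun P => ?_⟩
  have e : ∀ α : ℝ, (((gaussK η α * ‖logSum P (l * α)‖ ^ 2 : ℝ)) : ℂ) =
      ∑ z ∈ primeSet P ×ˢ primeSet P, ((Real.log z.1 * Real.log z.2 : ℝ) : ℂ) *
        ((gaussK η α : ℂ) * eAdd (l * ((z.1 : ℝ) - z.2) * α)) := fun α => by
    rw [Complex.ofReal_mul, Complex.ofReal_pow, ← Complex.mul_conj', logSum, map_sum,
      sum_mul_sum, mul_sum, sum_product]
    refine sum_congr rfl fun x _ => ?_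
    rw [mul_sum]
    refine sum_congr rfl fun y _ => ?_
    rw [map_mul, Complex.conj_ofReal, conj_eAdd,
      show l * ((x : ℝ) - y) * α = (x : ℝ) * (l * α) + -((y : ℝ) * (l * α)) by ring, eAdd_add,
      Complex.ofReal_mul]
    ring
  have key : ∫ α : ℝ, gaussK η α * ‖logSum P (l * α)‖ ^ 2 =
      (∑ z ∈ primeSet P ×ˢ primeSet P,
        Real.log z.1 * Real.log z.2 * gaussW η (l * ((z.1 : ℝ) - z.2))) / η := by
    apply Complex.ofReal_injective
    rw [← integral_complex_ofReal, integral_congr_ae (ae_of_all _ e),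
      integral_finsetSum _ fun z _ => (integrable_kernel_eAdd hη _).const_mul _]
    simp only [integral_const_mul, integral_gaussK_mul_eAdd hη]
    rw [sum_div, Complex.ofReal_sum]
    refine sum_congr rfl fun z _ => ?_
    rw [← Complex.ofReal_mul]
    congr 1
    ring
  rw [key, div_mul_eq_mul_div, sum_product]
  refine div_le_div_of_nonneg_right ?_ hη.le
  have hL : 0 ≤ logOne P := zero_le_one.trans (one_le_logOne P)
  refine (sum_le_sum (g := fun x : ℕ => Real.log x * (logOne P * G)) fun x _ => ?_).trans ?_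
  · refine (sum_le_sum (g := fun y : ℕ => Real.log x * (logOne P *
      gaussW η (l * ((((x : ℤ) - y : ℤ)) : ℝ)))) fun y hy => ?_).trans ?_
    · rw [mul_assoc]
      push_cast
      refine mul_le_mul_of_nonneg_left (mul_le_mul_of_nonneg_right ?_ (gaussW_pos _ _).le)
        (Real.log_natCast_nonneg x)
      simp only [Equidist.primeSet, mem_filter, mem_range] at hy
      have := Real.log_le_log (Nat.cast_pos.2 hy.2.pos) (Nat.cast_le (α := ℝ).2
        (Nat.lt_succ_iff.1 hy.1))
      unfold ThreePrimes.logOne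
      linarith
    · rw [← mul_sum, ← mul_sum]
      refine mul_le_mul_of_nonneg_left (mul_le_mul_of_nonneg_left ?_ hL)
        (Real.log_natCast_nonneg x)
      rw [← sum_image (f := fun n : ℤ => gaussW η (l * (n : ℝ)))
        (g := fun y : ℕ => (x : ℤ) - y) fun u _ v _ h => by simpa using h]
      exact hGS _
  · rw [← sum_mul]
    calc (∑ x ∈ primeSet P, Real.log x) * (logOne P * G) ≤ 2 * (P : ℝ) * (logOne P * G) :=
          mul_le_mul_of_nonneg_right (sum_log_le P) (mul_nonneg hL hG.le)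
      _ = _ := by ring

theorem integrable_sumSq {η : ℝ} (hη : 0 < η) (a b c : ℝ) (P : ℕ) :
    Integrable fun α => gaussK η α * sumSq a b c P α := by
  simp only [sumSq, mul_add]
  exact ((integrable_sq hη P a).add (integrable_sq hη P b)).add (integrable_sq hη P c)

theorem exists_sumSq_le {a b c η : ℝ} (ha : a ≠ 0) (hb : b ≠ 0) (hc : c ≠ 0) (hη : 0 < η) :
    ∃ G : ℝ, 0 < G ∧ ∀ P : ℕ,
      ∫ α : ℝ, gaussK η α * sumSq a b c P α ≤ G * ((P : ℝ) * logOne P) := by
  obtain ⟨G₁, hG₁, h₁⟩ := exists_sq_moment hη ha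
  obtain ⟨G₂, hG₂, h₂⟩ := exists_sq_moment hη hb
  obtain ⟨G₃, hG₃, h₃⟩ := exists_sq_moment hη hc
  refine ⟨G₁ + G₂ + G₃, by positivity, fun P => ?_⟩
  simp only [sumSq, mul_add]
  have h12 : Integrable fun α => gaussK η α * ‖logSum P (a * α)‖ ^ 2 +
      gaussK η α * ‖logSum P (b * α)‖ ^ 2 := (integrable_sq hη P a).add (integrable_sq hη P b)
  rw [integral_add h12 (integrable_sq hη P c),
    integral_add (integrable_sq hη P a) (integrable_sq hη P b)]
  linarith [h₁ P, h₂ P, h₃ P]

end FA.LinearFormsPrimes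

end
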